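import Fermat.Agent.S48.Top.Spec
import Fermat.Agent.S48.H228.Packet
import Fermat.Agent.S48.H796.EisOne
import Fermat.Agent.S48.H548.M4a1Inst

/-!
# S48 / RES (Tower A1): the COHOMOLOGY SIDE, assembled (helper948)

`cohStatement : CohStatement` — for every weight-one eigen-datum `(N, ε, f)` there is a level
`M₀` (`N ∣ M₀`, same prime divisors) such that for every odd prime `ℓ`, every field `F` of
characteristic `ℓ` and every `ψ : ℤ̄ →+* F` there is a NONZERO PARABOLIC homomorphism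
`cl : Γ₁(M₀ ℓ) → F`, vanishing on elements of finite order, with

* `T_p cl = ψ(a_p(f)) • cl`            (`H548.heckeHom1`, transfer formula),
* `p • ⟨p⟩ cl = ψ(ε(p)) • cl`          (`H548.diaHom1 s`, `s ∈ Γ₀(M₀ ℓ)` with `s₁₁ ≡ p`),

for all primes `p ∤ M₀ ℓ`.  No characteristic-zero lift, no bound on `ℓ` besides `ℓ ≠ 2`.

Assembly of pieces on main:
* PACKET `H228.exists_integral_packet'` (helper228): the depleted form `h` of level `M₀`,
  everywhere integral, `a₁(h) = 1`;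
* P2-EIS `H796.exists_multiplier` (helper796/788/196): the weight-one multiplier `E ≡ 1 mod ψ`
  on `Γ₁(ℓ)` with nebentypus `ω⁻¹`;
* CHI0 + M4a1 `H548.exists_eigenclass_mul` (helper548/188): the eigenclass of `h · E`.

What remains of RES after this file is the GEOMETRIC side: the Kummer bridge
`Hom_par(Γ₁(M), 𝔽_ℓ) → J₁(M)[ℓ]` (Hecke- and diamond-equivariant, injective) and the raw
Eichler–Shimura relation on `J₁(M)[ℓ]`.
-/

set_option autoImplicit false
set_option linter.unusedSectionVars false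
set_option linter.style.haveILetI false

noncomputable section

namespace Fermat.Agent.S48.H948

open CongruenceSubgroup Matrix.SpecialLinearGroup ModularCurve.Period UpperHalfPlane
open ModularFormClass
open scoped MatrixGroups ModularForm

open Fermat.Agent.S48.Top (Zbar IsEigen)

/-- `cl : Γ₁(M) → F` is a cohomological eigenclass attached to `(f, ε)` through `ψ : ℤ̄ → F`. -/
structure IsCohEigenclass {N : ℕ} [NeZero N] (ε : DirichletCharacter ℂ N)
    (f : CuspForm (Gamma1 N) 1) (M : ℕ) [NeZero M] {F : Type} [Field F] (ψ : Zbar →+* F)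
    (cl : Additive (Gamma1 M) →+ F) : Prop where
  ne_zero : cl ≠ 0
  parabolic : IsParabolicHom (Gamma1 M) cl
  finOrder : ∀ γ : Gamma1 M, IsOfFinOrder γ → cl (Additive.ofMul γ) = 0
  hecke : ∀ (p : ℕ) [Fact p.Prime] (hpM : ¬ p ∣ M),
    ∃ a : Zbar, (a : ℂ) = qCoeff f p ∧
      ∀ γ : Additive (Gamma1 M), Fermat.Agent.S48.H548.heckeHom1 p hpM F cl γ = ψ a * cl γ
  diamond : ∀ (p : ℕ) [Fact p.Prime] (_ : ¬ p ∣ M) (s : SL(2, ℤ)) (hs : s ∈ Gamma0 M),
    ((s 1 1 : ℤ) : ZMod M) = (p : ZMod M) →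
    ∃ e : Zbar, (e : ℂ) = ε (p : ZMod N) ∧
      ∀ γ : Additive (Gamma1 M),
        (p : F) * Fermat.Agent.S48.H548.diaHom1 s hs F cl γ = ψ e * cl γ

/-- **COH**: the cohomology side of RES. -/
def CohStatement : Prop :=
  ∀ (N : ℕ) [NeZero N] (ε : DirichletCharacter ℂ N) (f : CuspForm (Gamma1 N) 1),
    IsEigen N ε f →
    ∃ (M₀ : ℕ) (_ : NeZero M₀), N ∣ M₀ ∧ (∀ q : ℕ, q.Prime → q ∣ M₀ → q ∣ N) ∧
      ∀ (ℓ : ℕ) [Fact ℓ.Prime], ℓ ≠ 2 →
        haveI : NeZero (M₀ * ℓ) := ⟨Nat.mul_ne_zero (NeZero.ne M₀) (Fact.out : ℓ.Prime).ne_zero⟩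
        ∀ (F : Type) [Field F] [CharP F ℓ] (ψ : Zbar →+* F),
          ∃ cl : Additive (Gamma1 (M₀ * ℓ)) →+ F, IsCohEigenclass ε f (M₀ * ℓ) ψ cl

/-- Values of Dirichlet characters are algebraic integers. -/
theorem isIntegral_dirichlet948 {M : ℕ} [NeZero M] (χ : DirichletCharacter ℂ M) (x : ZMod M) :
    IsIntegral ℤ (χ x) := by
  by_cases hx : IsUnit x
  · obtain ⟨u, rfl⟩ := hx
    have h1 : (χ (u : ZMod M)) ^ (Fintype.card (ZMod M)ˣ) = 1 := by
      rw [← map_pow, ← Units.val_pow_eq_pow_val, pow_card_eq_one, Units.val_one, map_one]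
    exact IsIntegral.of_pow (Fintype.card_pos) (h1 ▸ isIntegral_one)
  · rw [MulChar.map_nonunit χ hx]
    exact isIntegral_zero

theorem cohStatement : CohStatement := by
  intro N _ ε f hf
  obtain ⟨M₀, hM₀, hNM, hprimes, h, hE, hint, hp⟩ :=
    Fermat.Agent.S48.H228.exists_integral_packet' N ε f hf
  refine ⟨M₀, hM₀, hNM, hprimes, ?_⟩
  intro ℓ hℓ hℓ2 F _ _ ψ
  have : NeZero ℓ := ⟨hℓ.out.ne_zero⟩
  -- the multiplier
  obtain ⟨ψ', H, hψ', hHneb, hHq⟩ := Fermat.Agent.S48.H796.exists_multiplier ℓ ψ hℓ2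
  -- the data over `R = ℤ̄`
  set ε' : DirichletCharacter ℂ M₀ := DirichletCharacter.changeLevel hNM ε with hε'
  let ι : Zbar →+* ℂ := algebraMap Zbar ℂ
  have hι : Function.Injective ι := Subtype.val_injective
  let εR : ZMod M₀ → Zbar := fun x => ⟨ε' x, isIntegral_dirichlet948 ε' x⟩
  let ψR : ZMod ℓ → Zbar := fun a => (hψ' a).choose
  have hψR : ∀ a, ι (ψR a) = ψ' a := fun a => (hψ' a).choose_spec.1
  have hψR2 : ∀ a : ZMod ℓ, ψ (ψR a) * ((a.val : ℕ) : F) = if a = 0 then 0 else 1 :=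
    fun a => (hψ' a).choose_spec.2
  let c : ℕ → Zbar := fun n => ⟨qCoeff h n, hint n⟩
  let e : ℕ → Zbar := fun n => (hHq n).choose
  have he : ∀ n, qCoeff (⇑H : ℍ → ℂ) n = ι (e n) := fun n => ((hHq n).choose_spec.1).symm
  have he2 : ∀ n, ψ (e n) = if n = 0 then 1 else 0 := fun n => (hHq n).choose_spec.2
  have hc1 : c 1 = 1 := Subtype.ext hE.1
  -- Teichmüller property
  have hteich : ∀ p : ℕ, p.Prime → ¬ p ∣ M₀ * ℓ → ψ (ψR (p : ZMod ℓ)) * (p : F) = 1 := by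
    intro p _ hpM
    have hpℓ : ¬ ℓ ∣ p := fun hd => by
      have : p = ℓ := ((Nat.prime_dvd_prime_iff_eq hℓ.out ‹p.Prime›).mp hd).symm
      exact hpM (this ▸ Dvd.intro_left M₀ rfl)
    have h0 : ((p : ℕ) : ZMod ℓ) ≠ 0 := fun h => hpℓ ((ZMod.natCast_eq_zero_iff p ℓ).mp h)
    have h1 := hψR2 (p : ZMod ℓ)
    rw [if_neg h0] at h1
    have h2 : ((((p : ℕ) : ZMod ℓ).val : ℕ) : F) = (p : F) := by
      rw [ZMod.val_natCast]
      exact (CharP.cast_eq_mod F ℓ p).symm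
    rwa [h2] at h1
  -- the Hecke relations of `h`, over `ℤ̄` and then mod `ψ`
  have hrelR : ∀ p : ℕ, p.Prime → ¬ p ∣ M₀ * ℓ → ∀ n : ℕ,
      c (p * n) + εR (p : ZMod M₀) * (if p ∣ n then c (n / p) else 0) = c p * c n := by
    intro p hpr hpM n
    have hpM₀ : ¬ p ∣ M₀ := fun hd => hpM (Dvd.dvd.mul_right hd ℓ)
    apply Subtype.ext
    have := hE.2 p hpr hpM₀ n
    by_cases hd : p ∣ n
    · rw [if_pos hd] at this ⊢
      exact this
    · rw [if_neg hd] at this ⊢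
      simpa using this
  have hrel : ∀ p : ℕ, p.Prime → ¬ p ∣ M₀ * ℓ → ∀ n : ℕ,
      ψ (c (p * n)) + ψ (εR (p : ZMod M₀)) * (if p ∣ n then ψ (c (n / p)) else 0) =
        ψ (c p) * ψ (c n) := by
    intro p hpr hpM n
    have := congrArg ψ (hrelR p hpr hpM n)
    rw [map_add, map_mul, map_mul] at this
    rw [← this]
    by_cases hd : p ∣ n
    · rw [if_pos hd, if_pos hd]
    · rw [if_neg hd, if_neg hd, map_zero]
  -- nebentypus of `h` and `H`
  have hh : Fermat.Agent.S48.H548.HasNeb (fun x => ε' x) (⇑h) 1 := fun γ hγ =>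
    Fermat.Agent.S48.H848.nebentypus_of_hecke_SL ε' h hE.2 γ hγ
  have hHn : Fermat.Agent.S48.H548.HasNeb (fun x => ψ' x) (⇑H) 1 := fun γ hγ => hHneb γ hγ
  obtain ⟨cl, hcl0, hpar, hfin, hT, -, hD⟩ :=
    Fermat.Agent.S48.H548.exists_eigenclass_mul (N := M₀) (L := ℓ) (R := Zbar) (k := F) ℓ
      (ι := ι) (φ := ψ) hι (fun x => ε' x) εR (fun _ => rfl) (fun x => ψ' x) ψR hψR hteich
      (fun p => ψ (c p)) h hh c (fun _ => rfl) ⟨1, by rw [hc1, map_one]; exact one_ne_zero⟩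
      hrel H hHn e he (by rw [he2, if_pos rfl])
      (fun n hn => by rw [he2, if_neg (by omega)])
  refine ⟨cl, hcl0, hpar, hfin, ?_, ?_⟩
  · intro p hpf hpM
    have hpN : ¬ p ∣ N := fun hd => hpM (Dvd.dvd.mul_right (hd.trans hNM) ℓ)
    exact ⟨c p, hp p hpf.out hpN, fun γ => hT p hpM γ⟩
  · intro p hpf hpM s hs hsp
    have hpM₀ : ¬ p ∣ M₀ := fun hd => hpM (Dvd.dvd.mul_right hd ℓ)
    refine ⟨εR (p : ZMod M₀), ?_, fun γ => hD p hpM s hs hsp γ⟩
    have hc : IsCoprime ((p : ℕ) : ℤ) ((M₀ : ℕ) : ℤ) := by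
      rw [Nat.isCoprime_iff_coprime]
      exact (Nat.Prime.coprime_iff_not_dvd hpf.out).mpr hpM₀
    have := DirichletCharacter.changeLevel_eq_cast_of_dvd' ε hNM hc
    simpa using this

end Fermat.Agent.S48.H948
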