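import Fermat.Agent.S48.Top.Spec

/-!
# S48 glue (helper948): small shared lemmas

* `finite_range_of_finiteLevel`: a homomorphism on `G_ℚ` of finite level has finite image.
* `HasLowerDensity.nonempty`: positive lower density ⟹ non-empty.
* `le_of_lowerDensity_of_upperDensity`: lower density of a subset `≤` upper density.
-/

set_option autoImplicit false

namespace Fermat.Agent.S48.H948

open Fermat.Agent.Lib.Cheb.Spec Fermat.Agent.Lib.Cheb.SpecQ Fermat.Agent.S48.Top

/-- A homomorphism on `G_ℚ` which factors through a finite level has finite image. -/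
theorem finite_range_of_finiteLevel {M : Type} [Group M] (ρ : GQ →* M)
    (h : GaloisFactorsThroughFiniteLevel ρ) : Finite ρ.range := by
  obtain ⟨L, hL, hρ⟩ := h
  have : FiniteDimensional ℚ L := hL
  -- restriction to `L`
  let res : GQ → (L →ₐ[ℚ] Qb) := fun σ => (σ : Qb →ₐ[ℚ] Qb).comp L.val
  have hres : ∀ σ τ : GQ, res σ = res τ → ρ σ = ρ τ := by
    intro σ τ hστ
    have h1 : ρ (σ⁻¹ * τ) = 1 := by
      apply hρ
      intro x hx
      have h2 : σ x = τ x := congrArg (fun g : L →ₐ[ℚ] Qb => g ⟨x, hx⟩) hστ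
      show σ⁻¹ (τ x) = x
      rw [← h2]
      exact σ.symm_apply_apply x
    rw [map_mul, map_inv, inv_mul_eq_one] at h1
    exact h1
  -- the image of `ρ` is the image of a map from the finite set `Set.range res`
  let g : Set.range res → ρ.range := fun y => ⟨ρ y.2.choose, y.2.choose, rfl⟩
  have hg : Function.Surjective g := by
    rintro ⟨_, σ, rfl⟩
    refine ⟨⟨res σ, σ, rfl⟩, ?_⟩
    apply Subtype.ext
    show ρ _ = ρ σ
    exact hres _ _ (Set.mem_range_self (f := res) σ).choose_spec
  exact Finite.of_surjective g hg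

/-- Positive lower density implies non-empty. -/
theorem nonempty_of_hasLowerDensity {X : Set ℕ} {d : ℝ} (h : HasLowerDensity X d)
    (hd : 0 < d) : X.Nonempty := by
  obtain ⟨δ, hδ, hs⟩ := h (d / 2) (by positivity)
  set s : ℝ := 1 + min δ 1 / 2 with hsdef
  have hmin : 0 < min δ 1 := lt_min hδ one_pos
  have hs1 : 1 < s := by rw [hsdef]; linarith
  have hs2 : s < 1 + δ := by
    rw [hsdef]
    have : min δ 1 ≤ δ := min_le_left _ _
    linarith
  obtain ⟨T, hT, hsum⟩ := hs s hs1 hs2
  have hlog : 0 < Real.log (1 / (s - 1)) := by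
    apply Real.log_pos
    have h1 : s - 1 = min δ 1 / 2 := by rw [hsdef]; ring
    rw [h1]
    have h2 : min δ 1 ≤ 1 := min_le_right _ _
    rw [lt_div_iff₀ (by positivity)]
    linarith
  have hpos : 0 < ∑ p ∈ T, (p : ℝ) ^ (-s) := by
    refine lt_of_lt_of_le ?_ hsum
    have : d - d / 2 = d / 2 := by ring
    rw [this]
    positivity
  by_contra hX
  rw [Set.not_nonempty_iff_eq_empty] at hX
  have hTe : T = ∅ := by
    apply Finset.eq_empty_of_forall_notMem
    intro p hp
    have := hT p hp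
    rw [hX] at this
    exact this
  rw [hTe, Finset.sum_empty] at hpos
  exact lt_irrefl _ hpos

/-- The lower density of a subset is at most the upper density of the set. -/
theorem le_of_lowerDensity_of_upperDensity {X X' : Set ℕ} {d e : ℝ}
    (hX : HasLowerDensity X d) (hsub : X ⊆ X') (hX' : HasUpperDensity X' e) : d ≤ e := by
  by_contra hlt'
  have hlt : e < d := not_le.mp hlt'
  set η : ℝ := (d - e) / 4 with hη
  have hηpos : 0 < η := by rw [hη]; linarith
  obtain ⟨δ₁, hδ₁, h1⟩ := hX η hηpos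
  obtain ⟨δ₂, hδ₂, h2⟩ := hX' η hηpos
  set s : ℝ := 1 + min (min δ₁ δ₂) 1 / 2 with hsdef
  have hmin : 0 < min (min δ₁ δ₂) 1 := lt_min (lt_min hδ₁ hδ₂) one_pos
  have hs1 : 1 < s := by rw [hsdef]; linarith
  have hm1 : min (min δ₁ δ₂) 1 ≤ δ₁ := (min_le_left _ _).trans (min_le_left _ _)
  have hm2 : min (min δ₁ δ₂) 1 ≤ δ₂ := (min_le_left _ _).trans (min_le_right _ _)
  have hs2 : s < 1 + δ₁ := by rw [hsdef]; linarith
  have hs3 : s < 1 + δ₂ := by rw [hsdef]; linarith
  obtain ⟨T, hT, hsum⟩ := h1 s hs1 hs2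
  have hup := h2 s hs1 hs3 T (fun p hp => hsub (hT p hp))
  have hlog : 0 < Real.log (1 / (s - 1)) := by
    apply Real.log_pos
    have h1 : s - 1 = min (min δ₁ δ₂) 1 / 2 := by rw [hsdef]; ring
    rw [h1]
    have h2 : min (min δ₁ δ₂) 1 ≤ 1 := min_le_right _ _
    rw [lt_div_iff₀ (by positivity)]
    linarith
  have h3 : (d - η) * Real.log (1 / (s - 1)) ≤ (e + η) * Real.log (1 / (s - 1)) :=
    hsum.trans hup
  have h4 : d - η ≤ e + η := le_of_mul_le_mul_right h3 hlog
  rw [hη] at h4
  linarith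

end Fermat.Agent.S48.H948
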