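import Fermat.Agent.S48.Top.Spec

/-!
# S48 glue (helper948): matrices of finite order in `GL₂(ℂ)`

* `exists_roots_of_pow_eq_one`: `g ^ m = 1` ⟹ `tr g = α + β`, `det g = α β`, `α ^ m = β ^ m = 1`.
* `unitPairs m`: the finite set `{(α + β, α β) : α ^ m = β ^ m = 1}`.
* `eq_one_of_pow_eq_one_of_trace_det`: `g ^ m = 1`, `m ≠ 0`, `tr g = 2`, `det g = 1` ⟹ `g = 1`.
-/

set_option autoImplicit false

namespace Fermat.Agent.S48.H948

open Polynomial Matrix

/-- A matrix `g ∈ GL₂(ℂ)` with `g ^ m = 1` has trace `α + β` and determinant `α β` with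
`α ^ m = β ^ m = 1`. -/
theorem exists_roots_of_pow_eq_one (g : GL (Fin 2) ℂ) (m : ℕ) (hg : g ^ m = 1) :
    ∃ α β : ℂ, α ^ m = 1 ∧ β ^ m = 1 ∧
      (g : Matrix (Fin 2) (Fin 2) ℂ).trace = α + β ∧
      (g : Matrix (Fin 2) (Fin 2) ℂ).det = α * β ∧
      (g : Matrix (Fin 2) (Fin 2) ℂ).charpoly.roots = {α, β} := by
  set M : Matrix (Fin 2) (Fin 2) ℂ := (g : Matrix (Fin 2) (Fin 2) ℂ) with hM
  have hMm : M ^ m = 1 := by
    have := congrArg (fun u : GL (Fin 2) ℂ => (u : Matrix (Fin 2) (Fin 2) ℂ)) hg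
    simpa using this
  have hcard : M.charpoly.roots.card = 2 := by
    rw [Polynomial.splits_iff_card_roots.mp (IsAlgClosed.splits M.charpoly),
      Matrix.charpoly_natDegree_eq_dim, Fintype.card_fin]
  obtain ⟨α, β, hαβ⟩ := Multiset.card_eq_two.mp hcard
  have hroot : ∀ x ∈ M.charpoly.roots, x ^ m = 1 := by
    intro x hx
    have h1 : IsRoot M.charpoly x := (Polynomial.mem_roots'.mp hx).2
    have h2 : x ∈ spectrum ℂ M := Matrix.mem_spectrum_iff_isRoot_charpoly.mpr h1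
    have h3 : x ^ m ∈ spectrum ℂ (M ^ m) := spectrum.pow_mem_pow M m h2
    rw [hMm, spectrum.one_eq] at h3
    exact h3
  refine ⟨α, β, hroot α (by rw [hαβ]; simp), hroot β (by rw [hαβ]; simp), ?_, ?_, hαβ⟩
  · rw [Matrix.trace_eq_sum_roots_charpoly, hαβ]
    simp
  · rw [Matrix.det_eq_prod_roots_charpoly, hαβ]
    simp

/-- The finite set of complex `m`-th roots of unity (`m ≠ 0`). -/
noncomputable def unitRoots (m : ℕ) : Finset ℂ := Polynomial.nthRootsFinset m (1 : ℂ)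

theorem mem_unitRoots {m : ℕ} (hm : 0 < m) {z : ℂ} : z ∈ unitRoots m ↔ z ^ m = 1 :=
  Polynomial.mem_nthRootsFinset hm 1

/-- The finite set `{(α + β, α β) : α ^ m = β ^ m = 1}`. -/
noncomputable def unitPairs (m : ℕ) : Finset (ℂ × ℂ) :=
  (unitRoots m ×ˢ unitRoots m).image fun x => (x.1 + x.2, x.1 * x.2)

theorem trace_det_mem_unitPairs (g : GL (Fin 2) ℂ) {m : ℕ} (hm : 0 < m) (hg : g ^ m = 1) :
    ((g : Matrix (Fin 2) (Fin 2) ℂ).trace, (g : Matrix (Fin 2) (Fin 2) ℂ).det) ∈ unitPairs m := by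
  obtain ⟨α, β, hα, hβ, htr, hdet, -⟩ := exists_roots_of_pow_eq_one g m hg
  rw [unitPairs, Finset.mem_image]
  exact ⟨(α, β), Finset.mem_product.mpr ⟨(mem_unitRoots hm).mpr hα, (mem_unitRoots hm).mpr hβ⟩,
    by rw [htr, hdet]⟩

/-- Elements of `unitPairs m` are pairs of algebraic integers. -/
theorem isIntegral_of_mem_unitPairs {m : ℕ} (hm : 0 < m) {y : ℂ × ℂ} (hy : y ∈ unitPairs m) :
    IsIntegral ℤ y.1 ∧ IsIntegral ℤ y.2 := by
  rw [unitPairs, Finset.mem_image] at hy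
  obtain ⟨x, hx, rfl⟩ := hy
  rw [Finset.mem_product] at hx
  have h1 : IsIntegral ℤ x.1 :=
    IsIntegral.of_pow hm (by rw [(mem_unitRoots hm).mp hx.1]; exact isIntegral_one)
  have h2 : IsIntegral ℤ x.2 :=
    IsIntegral.of_pow hm (by rw [(mem_unitRoots hm).mp hx.2]; exact isIntegral_one)
  exact ⟨h1.add h2, h1.mul h2⟩

/-- A matrix of finite order in `GL₂(ℂ)` with trace `2` and determinant `1` is the identity. -/
theorem eq_one_of_pow_eq_one_of_trace_det (g : GL (Fin 2) ℂ) {m : ℕ} (hm : 0 < m)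
    (hg : g ^ m = 1) (htr : (g : Matrix (Fin 2) (Fin 2) ℂ).trace = 2)
    (hdet : (g : Matrix (Fin 2) (Fin 2) ℂ).det = 1) : g = 1 := by
  set M : Matrix (Fin 2) (Fin 2) ℂ := (g : Matrix (Fin 2) (Fin 2) ℂ) with hM
  have hMm : M ^ m = 1 := by
    have := congrArg (fun u : GL (Fin 2) ℂ => (u : Matrix (Fin 2) (Fin 2) ℂ)) hg
    simpa using this
  -- Cayley–Hamilton: (M - 1)^2 = 0
  have hCH : M ^ 2 - (1 + 1) * M + 1 = 0 := by
    have h := Matrix.aeval_self_charpoly M
    rw [Matrix.charpoly_fin_two, htr, hdet] at h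
    simpa [map_sub, map_add, map_mul, map_pow, aeval_X, aeval_C, two_smul, two_mul,
      Algebra.algebraMap_eq_smul_one] using h
  set n : Matrix (Fin 2) (Fin 2) ℂ := M - 1 with hn
  have hn2 : n * n = 0 := by
    have : n * n = M ^ 2 - (1 + 1) * M + 1 := by
      rw [hn]; noncomm_ring
    rw [this, hCH]
  have hMn : M = 1 + n := by rw [hn]; abel
  -- (1 + n)^m = 1 + m n
  have hpow : ∀ j : ℕ, (1 + n) ^ j = 1 + (j : ℂ) • n := by
    intro j
    induction j with
    | zero => simp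
    | succ j ih =>
      rw [pow_succ, ih]
      have : (1 + (j : ℂ) • n) * (1 + n) = 1 + ((j : ℂ) + 1) • n + (j : ℂ) • (n * n) := by
        rw [add_smul, one_smul]
        simp only [mul_add, add_mul, mul_one, one_mul, smul_mul_assoc]
        abel
      rw [this, hn2, smul_zero, add_zero]
      push_cast
      rfl
  have h1 : (m : ℂ) • n = 0 := by
    have := hpow m
    rw [← hMn, hMm] at this
    have h2 : (1 : Matrix (Fin 2) (Fin 2) ℂ) + (m : ℂ) • n = 1 + 0 := by rw [← this, add_zero]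
    exact add_left_cancel h2
  have hn0 : n = 0 := by
    rcases smul_eq_zero.mp h1 with h | h
    · exact absurd (by exact_mod_cast h : m = 0) hm.ne'
    · exact h
  apply Units.ext
  show M = 1
  rw [hMn, hn0, add_zero]

end Fermat.Agent.S48.H948
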