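import Fermat.Agent.S48.H948.ZLemma
import Fermat.Agent.S48.H948.Roots

/-!
# S48 glue piece EXA (helper948): `ComplexLiftStatement ⟹ ExactAwayStatement`

Deligne–Serre §8, second half.  The complex lifts `ρ_ℓ` have image of order `≤ A`, so the
traces and determinants of Frobenius elements lie in the finite set
`Y = {(α + β, α β) : α^(A!) = β^(A!) = 1}`.  A congruence modulo a place above a large prime
between two algebraic integers whose difference lies in a fixed finite set is an equality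
(Z-lemma).  First `(a_p, ε(p)) ∈ Y` for every `p` (with `ℓ` large depending on `p`), then
`(tr, det) ρ_ℓ(Frob_p) = (a_p, ε(p))` for all `p ∤ Nℓ`, `ℓ` large.
-/

set_option autoImplicit false

open CongruenceSubgroup
open scoped MatrixGroups

namespace Fermat.Agent.S48.H948

open Fermat.Agent.Lib.Cheb.Spec Fermat.Agent.Lib.Cheb.SpecQ Fermat.Agent.S48.Top

/-- Elements of a finite subgroup of order `≤ A` are killed by `A!`. -/
theorem pow_factorial_eq_one_of_card_range_le {G H : Type*} [Group G] [Group H] (ρ : G →* H)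
    (hfin : Finite ρ.range) {A : ℕ} (hA : Nat.card ρ.range ≤ A) (σ : G) :
    (ρ σ) ^ A.factorial = 1 := by
  have hpos : 0 < Nat.card ρ.range := Nat.card_pos
  have h1 : orderOf (⟨ρ σ, σ, rfl⟩ : ρ.range) ∣ Nat.card ρ.range := orderOf_dvd_natCard _
  have h2 : Nat.card ρ.range ∣ A.factorial := Nat.dvd_factorial hpos hA
  have h3 := orderOf_dvd_iff_pow_eq_one.mp (h1.trans h2)
  have h4 := congrArg (fun x : ρ.range => (x : H)) h3
  simpa using h4

/-- (EXA) -/
theorem exactAwayPiece : ExactAwayPiece := by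
  intro hCL N _ ε f hyp
  obtain ⟨A₀, B₀, h⟩ := hCL N ε f hyp
  set m := A₀.factorial with hm
  have hmpos : 0 < m := Nat.factorial_pos _
  -- traces and determinants of Frobenius elements lie in `unitPairs m`
  have hY : ∀ (ρ : GQ →* GL (Fin 2) ℂ), Finite ρ.range → Nat.card ρ.range ≤ A₀ → ∀ σ : GQ,
      (((ρ σ : GL (Fin 2) ℂ) : Matrix (Fin 2) (Fin 2) ℂ).trace,
        ((ρ σ : GL (Fin 2) ℂ) : Matrix (Fin 2) (Fin 2) ℂ).det) ∈ unitPairs m := by
    intro ρ hfin hcard σ
    exact trace_det_mem_unitPairs (ρ σ) hmpos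
      (pow_factorial_eq_one_of_card_range_le ρ hfin hcard σ)
  -- Step 1: `(a_p, ε p) ∈ unitPairs m` as soon as there is a Frobenius element at `p`
  have claim : ∀ p : ℕ, p.Prime → ¬ p ∣ N →
      (∃ (A : ValuationSubring Qb) (σ : GQ), A.LiesOverPrime p ∧ A.IsFrobeniusAt σ p) →
      (ModularFormClass.qCoeff f p, ε (p : ZMod N)) ∈ unitPairs m := by
    intro p hp hpN ⟨A, σ, hA, hσ⟩
    set D : Finset ℂ :=
      (unitPairs m).image (fun y => ModularFormClass.qCoeff f p - y.1) ∪
        (unitPairs m).image (fun y => ε (p : ZMod N) - y.2) with hD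
    obtain ⟨ℓ, hℓge, hℓ⟩ := Nat.exists_infinite_primes (max B₀ (max p (killProd D)) + 1)
    have hℓB : B₀ < ℓ := by have := le_max_left B₀ (max p (killProd D)); omega
    have hℓp : p < ℓ := by
      have := le_max_left p (killProd D)
      have := le_max_right B₀ (max p (killProd D)); omega
    have hℓD : killProd D < ℓ := by
      have := le_max_right p (killProd D)
      have := le_max_right B₀ (max p (killProd D)); omega
    obtain ⟨k, _, _, φ, ρ, -, hC, hfin, hcard⟩ := h ℓ hℓ hℓB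
    have hnd : ¬ p ∣ N * ℓ := by
      intro hdvd
      rcases (Nat.Prime.dvd_mul hp).mp hdvd with h1 | h1
      · exact hpN h1
      · have := (Nat.prime_dvd_prime_iff_eq hp hℓ).mp h1
        omega
    obtain ⟨a, e, t, d, ha, he, ht, hd, hta, hde⟩ := (hC p hp hnd A hA).2 σ hσ
    have hmem := hY ρ hfin hcard σ
    rw [← ht, ← hd] at hmem
    have h1 : a = t := by
      refine eq_of_map_eq_of_lt_char D hℓD φ a t ?_ hta.symm
      rw [hD, Finset.mem_union]
      left
      rw [Finset.mem_image]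
      exact ⟨_, hmem, by rw [ha]⟩
    have h2 : e = d := by
      refine eq_of_map_eq_of_lt_char D hℓD φ e d ?_ hde.symm
      rw [hD, Finset.mem_union]
      right
      rw [Finset.mem_image]
      exact ⟨_, hmem, by rw [he]⟩
    rw [← ha, ← he, h1, h2]
    exact hmem
  -- Step 2: exact equality for large `ℓ`
  set D : Finset ℂ :=
    (unitPairs m ×ˢ unitPairs m).image (fun yy => yy.1.1 - yy.2.1) ∪
      (unitPairs m ×ˢ unitPairs m).image (fun yy => yy.1.2 - yy.2.2) with hD
  refine ⟨max B₀ (killProd D), ?_⟩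
  intro ℓ hℓ hℓB
  have hℓB₀ : B₀ < ℓ := lt_of_le_of_lt (le_max_left _ _) hℓB
  have hℓD : killProd D < ℓ := lt_of_le_of_lt (le_max_right _ _) hℓB
  obtain ⟨k, _, _, φ, ρ, hFL, hC, hfin, hcard⟩ := h ℓ hℓ hℓB₀
  refine ⟨ρ, hFL, ?_⟩
  intro p hp hnd A hA
  obtain ⟨hin, hF⟩ := hC p hp hnd A hA
  refine ⟨hin, ?_⟩
  intro σ hσ
  obtain ⟨a, e, t, d, ha, he, ht, hd, hta, hde⟩ := hF σ hσ
  have hpN : ¬ p ∣ N := fun h1 => hnd (Dvd.dvd.mul_right h1 ℓ)
  have hmem1 := claim p hp hpN ⟨A, σ, hA, hσ⟩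
  have hmem2 := hY ρ hfin hcard σ
  rw [← ht, ← hd] at hmem2
  have h1 : a = t := by
    refine eq_of_map_eq_of_lt_char D hℓD φ a t ?_ hta.symm
    rw [hD, Finset.mem_union]
    left
    rw [Finset.mem_image]
    exact ⟨(_, _), Finset.mem_product.mpr ⟨hmem1, hmem2⟩, by rw [ha]⟩
  have h2 : e = d := by
    refine eq_of_map_eq_of_lt_char D hℓD φ e d ?_ hde.symm
    rw [hD, Finset.mem_union]
    right
    rw [Finset.mem_image]
    exact ⟨(_, _), Finset.mem_product.mpr ⟨hmem1, hmem2⟩, by rw [he]⟩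
  exact ⟨by rw [← ht, ← ha, h1], by rw [← hd, ← he, h2]⟩

end Fermat.Agent.S48.H948
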