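import Fermat.Agent.S48.Top.Spec

/-!
# S48 glue piece IRR, algebraic part (helper948)

* `mul_trace_sub_eq_det`: an eigenvalue `c` of a `2 × 2` matrix satisfies `c (tr - c) = det`.
* `two_mul_card_le_sum_normSq_trace`: a finite subgroup `Γ ≤ GL₂(ℂ)` stabilising a line satisfies
  `2 |Γ| ≤ ∑_{g ∈ Γ} ‖tr g‖²`.
* `isIrreducible_of_no_stable_line`: a representation `G → GL₂(k)` without stable line is
  irreducible (in the sense of `Representation.IsIrreducible`).
-/

set_option autoImplicit false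

namespace Fermat.Agent.S48.H948

open Matrix

/-- An eigenvalue `c` of a `2 × 2` matrix satisfies `c (tr - c) = det`. -/
theorem mul_trace_sub_eq_det {F : Type*} [Field F] (M : Matrix (Fin 2) (Fin 2) F)
    (v : Fin 2 → F) (hv : v ≠ 0) (c : F) (h : M *ᵥ v = c • v) :
    c * (M.trace - c) = M.det := by
  have h0 : (M - c • (1 : Matrix (Fin 2) (Fin 2) F)) *ᵥ v = 0 := by
    rw [Matrix.sub_mulVec, h, Matrix.smul_mulVec, Matrix.one_mulVec, sub_self]
  have hdet : (M - c • (1 : Matrix (Fin 2) (Fin 2) F)).det = 0 :=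
    Matrix.exists_mulVec_eq_zero_iff.mp ⟨v, hv, h0⟩
  rw [Matrix.det_fin_two] at hdet
  simp only [Matrix.sub_apply, Matrix.smul_apply, Matrix.one_apply_eq, smul_eq_mul, mul_one,
    Matrix.one_apply_ne (show (0 : Fin 2) ≠ 1 by decide),
    Matrix.one_apply_ne (show (1 : Fin 2) ≠ 0 by decide), mul_zero, sub_zero] at hdet
  rw [Matrix.trace_fin_two, Matrix.det_fin_two]
  linear_combination -hdet

section Stable

variable (Γ : Subgroup (GL (Fin 2) ℂ)) (v : Fin 2 → ℂ) (hv : v ≠ 0)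
  (hstab : ∀ g ∈ Γ, ∃ c : ℂ, ((g : GL (Fin 2) ℂ) : Matrix (Fin 2) (Fin 2) ℂ) *ᵥ v = c • v)

/-- the eigenvalue of `g ∈ Γ` on the stable line -/
noncomputable def eigVal
    (hstab : ∀ g ∈ Γ, ∃ c : ℂ, ((g : GL (Fin 2) ℂ) : Matrix (Fin 2) (Fin 2) ℂ) *ᵥ v = c • v)
    (g : Γ) : ℂ :=
  (hstab g g.2).choose

theorem eigVal_spec (g : Γ) :
    ((g : GL (Fin 2) ℂ) : Matrix (Fin 2) (Fin 2) ℂ) *ᵥ v = eigVal Γ v hstab g • v :=
  (hstab g g.2).choose_spec

include hv in
theorem eigVal_unique (g : Γ) (c : ℂ)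
    (h : ((g : GL (Fin 2) ℂ) : Matrix (Fin 2) (Fin 2) ℂ) *ᵥ v = c • v) :
    eigVal Γ v hstab g = c := by
  have h1 := eigVal_spec Γ v hstab g
  rw [h] at h1
  have h2 : (c - eigVal Γ v hstab g) • v = 0 := by rw [sub_smul, h1, sub_self]
  rcases smul_eq_zero.mp h2 with h3 | h3
  · exact (sub_eq_zero.mp h3).symm
  · exact absurd h3 hv

/-- the eigenvalue character -/
noncomputable def eigHom : Γ →* ℂ where
  toFun := eigVal Γ v hstab
  map_one' := by
    apply eigVal_unique Γ v hv hstab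
    simp
  map_mul' g h := by
    apply eigVal_unique Γ v hv hstab
    have : (((g * h : Γ) : GL (Fin 2) ℂ) : Matrix (Fin 2) (Fin 2) ℂ) =
        ((g : GL (Fin 2) ℂ) : Matrix (Fin 2) (Fin 2) ℂ) *
          ((h : GL (Fin 2) ℂ) : Matrix (Fin 2) (Fin 2) ℂ) := by simp
    rw [this, ← Matrix.mulVec_mulVec, eigVal_spec Γ v hstab h, Matrix.mulVec_smul,
      eigVal_spec Γ v hstab g, smul_smul, mul_comm]

/-- the determinant character -/
noncomputable def detHom : Γ →* ℂ where
  toFun g := ((g : GL (Fin 2) ℂ) : Matrix (Fin 2) (Fin 2) ℂ).det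
  map_one' := by simp
  map_mul' g h := by simp

theorem eigHom_apply (g : Γ) : eigHom Γ v hv hstab g = eigVal Γ v hstab g := rfl

/-- values of a homomorphism from a finite group to `ℂ` have norm one -/
theorem norm_hom_eq_one [Fintype Γ] (f : Γ →* ℂ) (g : Γ) : ‖f g‖ = 1 := by
  have h1 : f g ^ Fintype.card Γ = 1 := by
    rw [← map_pow, pow_card_eq_one, map_one]
  exact Complex.norm_eq_one_of_pow_eq_one h1 Fintype.card_ne_zero

/-- the character `c² · conj(det) = c / c'` -/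
noncomputable def ratioHom : Γ →* ℂ :=
  (eigHom Γ v hv hstab) ^ 2 * ((starRingEnd ℂ : ℂ →+* ℂ) : ℂ →* ℂ).comp (detHom Γ)

theorem normSq_trace_eq [Fintype Γ] (g : Γ) :
    ‖((g : GL (Fin 2) ℂ) : Matrix (Fin 2) (Fin 2) ℂ).trace‖ ^ 2 =
      2 + 2 * (ratioHom Γ v hv hstab g).re := by
  set c := eigVal Γ v hstab g with hc
  set M := ((g : GL (Fin 2) ℂ) : Matrix (Fin 2) (Fin 2) ℂ) with hM
  set c' := M.trace - c with hc'
  have hcc' : c * c' = M.det := mul_trace_sub_eq_det M v hv c (eigVal_spec Γ v hstab g)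
  have hnc : ‖c‖ = 1 := norm_hom_eq_one Γ (eigHom Γ v hv hstab) g
  have hnd : ‖M.det‖ = 1 := norm_hom_eq_one Γ (detHom Γ) g
  have hnc' : ‖c'‖ = 1 := by
    have : ‖c‖ * ‖c'‖ = 1 := by rw [← norm_mul, hcc', hnd]
    rw [hnc, one_mul] at this
    exact this
  have htr : M.trace = c + c' := by rw [hc']; ring
  have hNc : Complex.normSq c = 1 := by
    rw [Complex.normSq_eq_norm_sq, hnc]; norm_num
  have hNc' : Complex.normSq c' = 1 := by
    rw [Complex.normSq_eq_norm_sq, hnc']; norm_num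
  have hratio : ratioHom Γ v hv hstab g = c * (starRingEnd ℂ) c' := by
    show (eigVal Γ v hstab g) ^ 2 * (starRingEnd ℂ) M.det = c * (starRingEnd ℂ) c'
    rw [← hcc', map_mul, ← hc]
    have h1 : c * (starRingEnd ℂ) c = 1 := by
      rw [Complex.mul_conj, hNc]; norm_num
    calc c ^ 2 * ((starRingEnd ℂ) c * (starRingEnd ℂ) c')
        = (c * (starRingEnd ℂ) c) * (c * (starRingEnd ℂ) c') := by ring
      _ = c * (starRingEnd ℂ) c' := by rw [h1, one_mul]
  rw [← Complex.normSq_eq_norm_sq, htr, Complex.normSq_add, hNc, hNc', hratio]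
  ring

include hv hstab in
/-- A finite subgroup of `GL₂(ℂ)` stabilising a line satisfies `2 |Γ| ≤ ∑ ‖tr g‖²`. -/
theorem two_mul_card_le_sum_normSq_trace [Fintype Γ] :
    2 * (Fintype.card Γ : ℝ) ≤
      ∑ g : Γ, ‖((g : GL (Fin 2) ℂ) : Matrix (Fin 2) (Fin 2) ℂ).trace‖ ^ 2 := by
  classical
  have h1 : ∀ g : Γ, ‖((g : GL (Fin 2) ℂ) : Matrix (Fin 2) (Fin 2) ℂ).trace‖ ^ 2 =
      2 + 2 * (ratioHom Γ v hv hstab g).re := normSq_trace_eq Γ v hv hstab
  rw [Finset.sum_congr rfl (fun g _ => h1 g), Finset.sum_add_distrib, ← Finset.mul_sum,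
    Finset.sum_const, Finset.card_univ, nsmul_eq_mul]
  have h2 : (∑ g : Γ, (ratioHom Γ v hv hstab g).re) = (∑ g : Γ, ratioHom Γ v hv hstab g).re := by
    rw [Complex.re_sum]
  have h3 : 0 ≤ (∑ g : Γ, ratioHom Γ v hv hstab g).re := by
    rw [sum_hom_units (ratioHom Γ v hv hstab)]
    split_ifs
    · simp
    · simp
  rw [h2]
  nlinarith

end Stable

/-- A representation `G → GL₂(k)` without stable line is irreducible. -/
theorem isIrreducible_of_no_stable_line {G : Type} [Group G] {k : Type} [Field k]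
    (ρ : G →* GL (Fin 2) k)
    (h : ¬ ∃ v : Fin 2 → k, v ≠ 0 ∧
      ∀ σ : G, ∃ c : k, ((ρ σ : GL (Fin 2) k) : Matrix (Fin 2) (Fin 2) k) *ᵥ v = c • v) :
    (Deformation.matrixRepresentation ρ).IsIrreducible := by
  have hnt : Nontrivial (Subrepresentation (Deformation.matrixRepresentation ρ)) := by
    refine ⟨⊥, ⊤, fun hbt => ?_⟩
    have h1 := congrArg Subrepresentation.toSubmodule hbt
    exact bot_ne_top h1
  refine { toNontrivial := hnt, eq_bot_or_eq_top := ?_ }
  intro W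
  have hdim : Module.finrank k (Fin 2 → k) = 2 := by simp
  have hle : Module.finrank k W.toSubmodule ≤ 2 :=
    (Submodule.finrank_le _).trans hdim.le
  have hcases : Module.finrank k W.toSubmodule = 0 ∨ Module.finrank k W.toSubmodule = 1 ∨
      Module.finrank k W.toSubmodule = 2 := by omega
  rcases hcases with h0 | h1 | h2
  · left
    apply Subrepresentation.toSubmodule_injective
    exact Submodule.finrank_eq_zero.mp h0
  · exfalso
    apply h
    obtain ⟨v, hv0, hv⟩ := finrank_eq_one_iff'.mp h1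
    refine ⟨(v : Fin 2 → k), fun hz => hv0 (Subtype.ext hz), ?_⟩
    intro σ
    have hmem : (Deformation.matrixRepresentation ρ) σ (v : Fin 2 → k) ∈ W.toSubmodule :=
      W.apply_mem_toSubmodule σ v.2
    obtain ⟨c, hc⟩ := hv ⟨_, hmem⟩
    refine ⟨c, ?_⟩
    have h3 := congrArg (fun x : W.toSubmodule => (x : Fin 2 → k)) hc
    simp only [Submodule.coe_smul] at h3
    rw [h3, Deformation.matrixRepresentation_apply, Matrix.mulVecLin_apply]
  · right
    apply Subrepresentation.toSubmodule_injective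
    apply Submodule.eq_top_of_finrank_eq
    rw [h2, hdim]

end Fermat.Agent.S48.H948
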