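import Fermat.Agent.S48.H948.Basic
import Fermat.Agent.S48.H948.Irr1

/-!
# S48 glue piece IRR (helper948): `RankinStatement + ChebDensityStatement ⟹ IrreducibleStatement`

If `ρ` (finite image, attached to `(f, ε)`) stabilised a line, then
`∑_{g ∈ Γ} ‖tr g‖² ≥ 2 |Γ|` (`Irr1`).  By Chebotarev the primes `p` with `‖a_p‖² = v` have lower
density at least `#{g : ‖tr g‖² = v} / |Γ|`, so `∑_p ‖a_p‖² p^{-s} ≥ (2 - 1/4) log (1/(s-1))`
along suitable finite sets of primes, contradicting the sharp Rankin bound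
`≤ log (1/(s-1)) + C`.
-/

set_option autoImplicit false

open CongruenceSubgroup
open scoped MatrixGroups

namespace Fermat.Agent.S48.H948

open Fermat.Agent.Lib.Cheb.Spec Fermat.Agent.Lib.Cheb.SpecQ Fermat.Agent.S48.Top Matrix

/-- A common `δ` for finitely many "for all `s` close to `1`" statements. -/
theorem exists_common_delta {ι : Type*} (V : Finset ι) (P : ι → ℝ → Prop)
    (h : ∀ v ∈ V, ∃ δ : ℝ, 0 < δ ∧ ∀ s : ℝ, 1 < s → s < 1 + δ → P v s) :
    ∃ δ : ℝ, 0 < δ ∧ ∀ v ∈ V, ∀ s : ℝ, 1 < s → s < 1 + δ → P v s := by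
  classical
  induction V using Finset.induction_on with
  | empty => exact ⟨1, one_pos, fun v hv => absurd hv (Finset.notMem_empty v)⟩
  | insert a V ha ih =>
    obtain ⟨δ₁, hδ₁, h1⟩ := ih fun v hv => h v (Finset.mem_insert_of_mem hv)
    obtain ⟨δ₂, hδ₂, h2⟩ := h a (Finset.mem_insert_self a V)
    refine ⟨min δ₁ δ₂, lt_min hδ₁ hδ₂, ?_⟩
    intro v hv s hs1 hs2
    rcases Finset.mem_insert.mp hv with rfl | hv'
    · exact h2 s hs1 (lt_of_lt_of_le hs2 (by linarith [min_le_right δ₁ δ₂]))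
    · exact h1 v hv' s hs1 (lt_of_lt_of_le hs2 (by linarith [min_le_left δ₁ δ₂]))

/-- The core of IRR: a representation of finite level attached to `(f, ε)` has no stable line. -/
theorem no_stable_line (hRankin : RankinStatement) (hCheb : ChebDensityStatement)
    (N : ℕ) [NeZero N] (ε : DirichletCharacter ℂ N) (f : CuspForm (Gamma1 N) 1)
    (hyp : IsEigen N ε f) (ρ : GQ →* GL (Fin 2) ℂ) (hFL : GaloisFactorsThroughFiniteLevel ρ)
    (hatt : IsAttachedC ε f N ρ) :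
    ¬ ∃ v : Fin 2 → ℂ, v ≠ 0 ∧
      ∀ σ : GQ, ∃ c : ℂ, ((ρ σ : GL (Fin 2) ℂ) : Matrix (Fin 2) (Fin 2) ℂ) *ᵥ v = c • v := by
  classical
  rintro ⟨v, hv, hline⟩
  have hN : N ≠ 0 := NeZero.ne N
  obtain ⟨E, hE, hρE⟩ := hFL
  have hfin : Finite ρ.range := finite_range_of_finiteLevel ρ ⟨E, hE, hρE⟩
  letI : Fintype ρ.range := Fintype.ofFinite _
  have hstab : ∀ g ∈ ρ.range, ∃ c : ℂ,
      ((g : GL (Fin 2) ℂ) : Matrix (Fin 2) (Fin 2) ℂ) *ᵥ v = c • v := by
    rintro g ⟨σ, rfl⟩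
    exact hline σ
  have hsum := two_mul_card_le_sum_normSq_trace ρ.range v hv hstab
  -- the function `F g = ‖tr g‖²` and its values
  set F : ρ.range → ℝ :=
    fun g => ‖((g : GL (Fin 2) ℂ) : Matrix (Fin 2) (Fin 2) ℂ).trace‖ ^ 2 with hF
  set V : Finset ℝ := Finset.univ.image F with hV
  have hVnonneg : ∀ v ∈ V, 0 ≤ v := by
    intro v hv
    obtain ⟨g, -, rfl⟩ := Finset.mem_image.mp hv
    exact sq_nonneg _
  -- the classes
  set C : ℝ → Set (GL (Fin 2) ℂ) :=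
    fun v => {g | ‖((g : GL (Fin 2) ℂ) : Matrix (Fin 2) (Fin 2) ℂ).trace‖ ^ 2 = v} with hC
  set n : ℕ := Fintype.card ρ.range with hn
  have hnpos : 0 < n := Fintype.card_pos
  have hcardR : Nat.card ↥(Set.range ρ) = n := by
    rw [hn, ← Nat.card_eq_fintype_card]
    exact Nat.card_congr (Equiv.setCongr (MonoidHom.coe_range ρ).symm)
  have hcardC : ∀ v : ℝ, Nat.card ↥(C v ∩ Set.range ρ) =
      (Finset.univ.filter fun g : ρ.range => F g = v).card := by
    intro v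
    rw [← Fintype.card_subtype, ← Nat.card_eq_fintype_card]
    refine Nat.card_congr
      { toFun := fun x => ⟨⟨x.1, (MonoidHom.mem_range).mpr x.2.2⟩, x.2.1⟩
        invFun := fun y => ⟨y.1.1, y.2, (MonoidHom.mem_range).mp y.1.2⟩
        left_inv := fun x => rfl
        right_inv := fun y => rfl }
  -- weights
  set w : ℝ → ℝ := fun v =>
    (Nat.card ↥(C v ∩ Set.range ρ) : ℝ) / (Nat.card ↥(Set.range ρ) : ℝ) with hw
  have hwsum : 2 ≤ ∑ v ∈ V, v * w v := by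
    have h1 : ∑ g : ρ.range, F g =
        ∑ v ∈ V, ((Finset.univ.filter fun g : ρ.range => F g = v).card : ℝ) * v := by
      have := Finset.sum_comp (s := (Finset.univ : Finset ρ.range)) (fun x : ℝ => x) F
      simp only [nsmul_eq_mul] at this
      exact this
    have h2 : ∑ v ∈ V, v * w v = (∑ g : ρ.range, F g) / n := by
      rw [h1, Finset.sum_div]
      refine Finset.sum_congr rfl fun v _ => ?_
      rw [hw]
      simp only
      rw [hcardC v, hcardR]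
      ring
    rw [h2, le_div_iff₀ (by exact_mod_cast hnpos)]
    exact hsum
  -- lower densities
  set S : Finset ℕ := N.primeFactors with hS
  have hdens : ∀ v : ℝ, HasLowerDensity (frobPrimesHom ρ (C v) S) (w v) :=
    fun v => hCheb (GL (Fin 2) ℂ) ρ E hE hρE (C v) S
  have hmemX : ∀ v : ℝ, ∀ p ∈ frobPrimesHom ρ (C v) S,
      p.Prime ∧ ¬ p ∣ N ∧ ‖ModularFormClass.qCoeff f p‖ ^ 2 = v := by
    rintro v p ⟨hp, hpS, A, τ, hA, hτ, -, hτC⟩
    have hpN : ¬ p ∣ N := fun hd => hpS (Nat.mem_primeFactors.mpr ⟨hp, hd, hN⟩)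
    refine ⟨hp, hpN, ?_⟩
    rw [← ((hatt p hp hpN A hA).2 τ hτ).1]
    exact hτC
  -- Rankin
  obtain ⟨C₀, hR⟩ := hRankin N ε f hyp
  set M₀ : ℝ := ∑ v ∈ V, v with hM₀
  have hM₀nonneg : 0 ≤ M₀ := Finset.sum_nonneg hVnonneg
  set δ₀ : ℝ := 1 / (4 * (M₀ + 1)) with hδ₀
  have hδ₀pos : 0 < δ₀ := by rw [hδ₀]; positivity
  have hδ₀M : δ₀ * M₀ ≤ 1 / 4 := by
    rw [hδ₀, div_mul_eq_mul_div, one_mul, div_le_iff₀ (by positivity)]
    linarith
  obtain ⟨δ, hδ, hall⟩ := exists_common_delta V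
    (fun v s => ∃ T : Finset ℕ, (∀ p ∈ T, p ∈ frobPrimesHom ρ (C v) S) ∧
      (w v - δ₀) * Real.log (1 / (s - 1)) ≤ ∑ p ∈ T, (p : ℝ) ^ (-s))
    (fun v _ => hdens v δ₀ hδ₀pos)
  -- the choice of `s`
  set t : ℝ := min (min δ 1) (Real.exp (-(2 * |C₀| + 1))) / 2 with ht
  have hmin : 0 < min (min δ 1) (Real.exp (-(2 * |C₀| + 1))) :=
    lt_min (lt_min hδ one_pos) (Real.exp_pos _)
  have htpos : 0 < t := by rw [ht]; linarith
  have htδ : t < δ := by
    have h1 : min (min δ 1) (Real.exp (-(2 * |C₀| + 1))) ≤ δ :=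
      (min_le_left _ _).trans (min_le_left _ _)
    rw [ht]; linarith
  have ht1 : t ≤ 1 := by
    have h1 : min (min δ 1) (Real.exp (-(2 * |C₀| + 1))) ≤ 1 :=
      (min_le_left _ _).trans (min_le_right _ _)
    rw [ht]; linarith
  have htexp : t < Real.exp (-(2 * |C₀| + 1)) := by
    have h1 : min (min δ 1) (Real.exp (-(2 * |C₀| + 1))) ≤ Real.exp (-(2 * |C₀| + 1)) :=
      min_le_right _ _
    rw [ht]; linarith
  set s : ℝ := 1 + t with hs
  have hs1 : 1 < s := by rw [hs]; linarith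
  have hs2 : s ≤ 2 := by rw [hs]; linarith
  have hsδ : s < 1 + δ := by rw [hs]; linarith
  set L : ℝ := Real.log (1 / (s - 1)) with hL
  have hLbig : 2 * |C₀| + 1 < L := by
    have h1 : s - 1 = t := by rw [hs]; ring
    rw [hL, h1, one_div, Real.log_inv, lt_neg]
    have h2 : Real.log t < Real.log (Real.exp (-(2 * |C₀| + 1))) :=
      Real.log_lt_log htpos htexp
    rw [Real.log_exp] at h2
    exact h2
  have hLpos : 0 < L := by
    have := abs_nonneg C₀
    linarith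
  -- the finite sets of primes
  have hex : ∀ v : ℝ, ∃ T : Finset ℕ, v ∈ V → ((∀ p ∈ T, p ∈ frobPrimesHom ρ (C v) S) ∧
      (w v - δ₀) * L ≤ ∑ p ∈ T, (p : ℝ) ^ (-s)) := by
    intro v
    by_cases hv : v ∈ V
    · obtain ⟨T, hT1, hT2⟩ := hall v hv s hs1 hsδ
      exact ⟨T, fun _ => ⟨hT1, hT2⟩⟩
    · exact ⟨∅, fun h => absurd h hv⟩
  choose T hT using hex
  have hdisj : Set.PairwiseDisjoint (V : Set ℝ) T := by
    intro v hv v' hv' hne
    rw [Function.onFun, Finset.disjoint_left]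
    intro p hp hp'
    have h1 := (hmemX v p ((hT v hv).1 p hp)).2.2
    have h2 := (hmemX v' p ((hT v' hv').1 p hp')).2.2
    exact hne (h1.symm.trans h2)
  set TT : Finset ℕ := V.biUnion T with hTT
  have hTTprime : ∀ p ∈ TT, p.Prime ∧ ¬ p ∣ N := by
    intro p hp
    obtain ⟨v, hv, hpv⟩ := Finset.mem_biUnion.mp hp
    have := hmemX v p ((hT v hv).1 p hpv)
    exact ⟨this.1, this.2.1⟩
  have hRk := hR s hs1 hs2 TT hTTprime
  have hlow : (∑ v ∈ V, v * (w v - δ₀)) * L ≤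
      ∑ p ∈ TT, ‖ModularFormClass.qCoeff f p‖ ^ 2 * (p : ℝ) ^ (-s) := by
    rw [hTT, Finset.sum_biUnion hdisj, Finset.sum_mul]
    refine Finset.sum_le_sum fun v hv => ?_
    have h1 : ∑ p ∈ T v, ‖ModularFormClass.qCoeff f p‖ ^ 2 * (p : ℝ) ^ (-s) =
        v * ∑ p ∈ T v, (p : ℝ) ^ (-s) := by
      rw [Finset.mul_sum]
      refine Finset.sum_congr rfl fun p hp => ?_
      rw [(hmemX v p ((hT v hv).1 p hp)).2.2]
    rw [h1, mul_assoc]
    exact mul_le_mul_of_nonneg_left (hT v hv).2 (hVnonneg v hv)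
  have hcoef : 7 / 4 ≤ ∑ v ∈ V, v * (w v - δ₀) := by
    have h1 : ∑ v ∈ V, v * (w v - δ₀) = (∑ v ∈ V, v * w v) - δ₀ * M₀ := by
      rw [hM₀, Finset.mul_sum, ← Finset.sum_sub_distrib]
      refine Finset.sum_congr rfl fun v _ => ?_
      ring
    rw [h1]
    linarith
  have h1 : 7 / 4 * L ≤ L + C₀ :=
    (mul_le_mul_of_nonneg_right hcoef hLpos.le).trans (hlow.trans hRk)
  have h2 : C₀ ≤ |C₀| := le_abs_self C₀
  have h3 := abs_nonneg C₀
  linarith

/-- (IRR) -/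
theorem irreduciblePiece : IrreduciblePiece := by
  intro hRankin hCheb N _ ε f hyp ρ hFL hatt
  exact isIrreducible_of_no_stable_line ρ
    (no_stable_line hRankin hCheb N ε f hyp ρ hFL hatt)

end Fermat.Agent.S48.H948
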