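import Fermat.Agent.S48.H948.Basic
import Fermat.Agent.S48.H948.Roots

/-!
# S48 glue piece TWO (helper948): `ExactAwayStatement + ChebDensityStatement ⟹ ExactStatement`

Take two primes `ℓ₁ ≠ ℓ₂` and the representations `ρ₁`, `ρ₂` attached away from `Nℓ₁`, `Nℓ₂`.
By Chebotarev every element of the image of `ρ₁ × ρ₂` is the image of a Frobenius element at a
prime `p ∤ Nℓ₁ℓ₂`, where both traces are `a_p` and both determinants are `ε(p)`.  Hence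
`(tr, det) ∘ ρ₁ = (tr, det) ∘ ρ₂`; an element of finite order with trace `2` and determinant `1`
is the identity, so `ker ρ₂ ⊆ ker ρ₁`, and `ρ₁` is unramified at `ℓ₁` with the right Frobenius.
-/

set_option autoImplicit false

open CongruenceSubgroup
open scoped MatrixGroups

namespace Fermat.Agent.S48.H948

open Fermat.Agent.Lib.Cheb.Spec Fermat.Agent.Lib.Cheb.SpecQ Fermat.Agent.S48.Top

/-- The product of two homomorphisms of finite level has finite level. -/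
theorem finiteLevel_prod {M₁ M₂ : Type} [Group M₁] [Group M₂] (ρ₁ : GQ →* M₁) (ρ₂ : GQ →* M₂)
    (h₁ : GaloisFactorsThroughFiniteLevel ρ₁) (h₂ : GaloisFactorsThroughFiniteLevel ρ₂) :
    ∃ E : IntermediateField ℚ Qb, FiniteDimensional ℚ E ∧
      ∀ σ : GQ, (∀ x ∈ E, σ x = x) → (ρ₁.prod ρ₂) σ = 1 := by
  obtain ⟨E₁, hE₁, hρ₁⟩ := h₁
  obtain ⟨E₂, hE₂, hρ₂⟩ := h₂
  have : FiniteDimensional ℚ E₁ := hE₁
  have : FiniteDimensional ℚ E₂ := hE₂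
  refine ⟨E₁ ⊔ E₂, inferInstance, ?_⟩
  intro σ hσ
  have e1 : ρ₁ σ = 1 := hρ₁ σ fun x hx => hσ x ((le_sup_left : E₁ ≤ E₁ ⊔ E₂) hx)
  have e2 : ρ₂ σ = 1 := hρ₂ σ fun x hx => hσ x ((le_sup_right : E₂ ≤ E₁ ⊔ E₂) hx)
  rw [MonoidHom.prod_apply, e1, e2]
  rfl

/-- Chebotarev, qualitative client form extracted from the density statement: every value of a
homomorphism of finite level is the value at a Frobenius element at an unramified prime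
outside `S`. -/
theorem exists_frobenius_of_chebDensity (hCheb : ChebDensityStatement) {G : Type} [Group G]
    (ρ : GQ →* G) (E : IntermediateField ℚ Qb) (hE : FiniteDimensional ℚ E)
    (hρ : ∀ σ : GQ, (∀ x ∈ E, σ x = x) → ρ σ = 1) (S : Finset ℕ) (σ : GQ) :
    ∃ (p : ℕ) (A : ValuationSubring Qb) (τ : GQ), p.Prime ∧ p ∉ S ∧ A.LiesOverPrime p ∧
      A.IsFrobeniusAt τ p ∧ ρ τ = ρ σ := by
  have hfin : Finite ρ.range := finite_range_of_finiteLevel ρ ⟨E, hE, hρ⟩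
  have hfin' : Finite ↥(Set.range ρ) := hfin
  have hdens := hCheb G ρ E hE hρ {ρ σ} S
  have hinter : ({ρ σ} ∩ Set.range ρ : Set G) = {ρ σ} := by
    rw [Set.inter_eq_left, Set.singleton_subset_iff]
    exact Set.mem_range_self σ
  have hpos : (0 : ℝ) <
      (Nat.card ↥({ρ σ} ∩ Set.range ρ : Set G) : ℝ) / (Nat.card ↥(Set.range ρ) : ℝ) := by
    rw [hinter, Nat.card_unique, Nat.cast_one]
    have : Nonempty ↥(Set.range ρ) := ⟨⟨ρ σ, Set.mem_range_self σ⟩⟩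
    have h0 : 0 < Nat.card ↥(Set.range ρ) := Nat.card_pos
    positivity
  obtain ⟨p, hp⟩ := nonempty_of_hasLowerDensity hdens hpos
  obtain ⟨hpp, hpS, A, τ, hA, hτ, -, hτσ⟩ := hp
  exact ⟨p, A, τ, hpp, hpS, hA, hτ, hτσ⟩

/-- (TWO) -/
theorem exactPiece : ExactPiece := by
  intro hEA hCheb N _ ε f hyp
  obtain ⟨B, h⟩ := hEA N ε f hyp
  obtain ⟨ℓ₁, hℓ₁B, hℓ₁⟩ := Nat.exists_infinite_primes (B + 1)
  obtain ⟨ℓ₂, hℓ₂ℓ₁, hℓ₂⟩ := Nat.exists_infinite_primes (ℓ₁ + 1)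
  obtain ⟨ρ₁, hFL₁, hatt₁⟩ := h ℓ₁ hℓ₁ (by omega)
  obtain ⟨ρ₂, hFL₂, hatt₂⟩ := h ℓ₂ hℓ₂ (by omega)
  have hN : N ≠ 0 := NeZero.ne N
  obtain ⟨E, hE, hE12⟩ := finiteLevel_prod ρ₁ ρ₂ hFL₁ hFL₂
  -- traces and determinants agree everywhere
  have hagree : ∀ σ : GQ,
      ((ρ₁ σ : GL (Fin 2) ℂ) : Matrix (Fin 2) (Fin 2) ℂ).trace =
        ((ρ₂ σ : GL (Fin 2) ℂ) : Matrix (Fin 2) (Fin 2) ℂ).trace ∧
      ((ρ₁ σ : GL (Fin 2) ℂ) : Matrix (Fin 2) (Fin 2) ℂ).det =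
        ((ρ₂ σ : GL (Fin 2) ℂ) : Matrix (Fin 2) (Fin 2) ℂ).det := by
    intro σ
    obtain ⟨p, A, τ, hp, hpS, hA, hτ, hτσ⟩ :=
      exists_frobenius_of_chebDensity hCheb (ρ₁.prod ρ₂) E hE hE12
        (N * ℓ₁ * ℓ₂).primeFactors σ
    have hne : N * ℓ₁ * ℓ₂ ≠ 0 :=
      mul_ne_zero (mul_ne_zero hN hℓ₁.ne_zero) hℓ₂.ne_zero
    have hnd : ¬ p ∣ N * ℓ₁ * ℓ₂ := fun hd =>
      hpS (Nat.mem_primeFactors.mpr ⟨hp, hd, hne⟩)
    have hnd₁ : ¬ p ∣ N * ℓ₁ := fun hd => hnd (Dvd.dvd.mul_right hd ℓ₂)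
    have hnd₂ : ¬ p ∣ N * ℓ₂ := fun hd => hnd (by
      have : N * ℓ₁ * ℓ₂ = N * ℓ₂ * ℓ₁ := by ring
      rw [this]
      exact Dvd.dvd.mul_right hd ℓ₁)
    have e1 : ρ₁ τ = ρ₁ σ := congrArg Prod.fst hτσ
    have e2 : ρ₂ τ = ρ₂ σ := congrArg Prod.snd hτσ
    obtain ⟨ht₁, hd₁⟩ := (hatt₁ p hp hnd₁ A hA).2 τ hτ
    obtain ⟨ht₂, hd₂⟩ := (hatt₂ p hp hnd₂ A hA).2 τ hτ
    rw [← e1, ← e2, ht₁, hd₁, ht₂, hd₂]
    exact ⟨rfl, rfl⟩
  -- kernel of `ρ₂` is contained in the kernel of `ρ₁`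
  have hfin₁ : Finite ρ₁.range := finite_range_of_finiteLevel ρ₁ hFL₁
  have hker : ∀ σ : GQ, ρ₂ σ = 1 → ρ₁ σ = 1 := by
    intro σ hσ
    obtain ⟨ht, hd⟩ := hagree σ
    rw [hσ] at ht hd
    have hpow : (ρ₁ σ) ^ (Nat.card ρ₁.range) = 1 := by
      have h3 : (⟨ρ₁ σ, σ, rfl⟩ : ρ₁.range) ^ (Nat.card ρ₁.range) = 1 := pow_card_eq_one'
      have h4 := congrArg (fun x : ρ₁.range => (x : GL (Fin 2) ℂ)) h3
      simpa using h4
    refine eq_one_of_pow_eq_one_of_trace_det (ρ₁ σ) Nat.card_pos hpow ?_ ?_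
    · rw [ht]
      simp
    · rw [hd]
      simp
  refine ⟨ρ₁, hFL₁, ?_⟩
  intro p hp hpN A hA
  by_cases hpℓ : p ∣ N * ℓ₁
  · -- `p = ℓ₁`: use `ρ₂`
    have hpeq : p = ℓ₁ := by
      rcases (Nat.Prime.dvd_mul hp).mp hpℓ with h1 | h1
      · exact absurd h1 hpN
      · exact (Nat.prime_dvd_prime_iff_eq hp hℓ₁).mp h1
    have hnd₂ : ¬ p ∣ N * ℓ₂ := by
      intro hd
      rcases (Nat.Prime.dvd_mul hp).mp hd with h1 | h1
      · exact hpN h1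
      · have := (Nat.prime_dvd_prime_iff_eq hp hℓ₂).mp h1
        omega
    obtain ⟨hin, hF⟩ := hatt₂ p hp hnd₂ A hA
    refine ⟨fun σ hσ => hker σ (hin σ hσ), fun σ hσ => ?_⟩
    obtain ⟨ht, hd⟩ := hF σ hσ
    obtain ⟨ht', hd'⟩ := hagree σ
    exact ⟨ht'.trans ht, hd'.trans hd⟩
  · exact hatt₁ p hp hpℓ A hA

end Fermat.Agent.S48.H948
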