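import Fermat.Agent.S48.H948.ResAsm
import Fermat.Agent.S48.Res.Chain

/-!
# S48 / RES (Tower A1): the row from `RawES1Statement s` + `Kum1Statement s` (helper948)

On helper168's concrete objects (`S48/F1/{Defs,Basic}.lean`: `J1T M ℓ = J₁(M)(ℚ̄)[ℓ]`, `heckeT`,
`diamondT`, ...; `S48/Res/Parts.lean`: `RawES1Statement s`, `diamondST s`) this file states the
KUMMER BRIDGE as a `Prop` about characters of `Γ₁(M)` only (no modular forms, no eigen-systems),

  `Kum1At s M ℓ` : `∃ κ : Hom(Γ₁(M), 𝔽_ℓ) → J₁(M)[ℓ]`, additive and injective on parabolic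
     characters, with
       `T_p (κ c)              = ⟨p⟩^{±1} κ (heckeHom1 p c)`,
       `⟨p⟩^{±1} κ (diaHom1 g c) = κ c`        (`g ∈ Γ₀(M)`, `g₁₁ ≡ p`),

(`⟨p⟩^{±1} = diamondST s`, the SAME orientation flag as in `RawES1Statement s`; `s = true` is the
expected one, see `coord/S48-F1.md` §3 and `coord/S48-RES-GEO.md`) and proves

  `geoStatement_of_es_kum s : RawES1Statement s → Kum1Statement s → GeoStatement`,
  `residual_of_es_kum s    : RawES1Statement s → Kum1Statement s → Top.ResidualStatement`.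

So OCC1 of `Res/Parts.lean` is replaced by KUM1: the eigen-system part (PACKET, P2, CHI0, M4a1,
coordinates, linear algebra) is closed in `CohAsm.lean` / `ResAsm.lean`.
-/

set_option autoImplicit false
set_option linter.unusedSectionVars false
set_option linter.style.haveILetI false

noncomputable section

namespace Fermat.Agent.S48.H948

open CongruenceSubgroup Matrix.SpecialLinearGroup ModularCurve AlgebraicCurve
open scoped MatrixGroups TensorProduct

open Fermat.Agent.S48.H548 (heckeHom1 diaHom1)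
open Fermat.Agent.S48.F1 Fermat.Agent.S48.Res

/-- **KUM1 at level `M` and modulus `ℓ`** (orientation `s`): the Kummer bridge
`Hom_par(Γ₁(M), 𝔽_ℓ) → J₁(M)(ℚ̄)[ℓ]`. -/
def Kum1At (s : Bool) (M : ℕ) [NeZero M] (ℓ : ℕ) : Prop :=
  ∃ κ : (Additive (Gamma1 M) →+ ZMod ℓ) → J1T M ℓ,
    (∀ c c' : Additive (Gamma1 M) →+ ZMod ℓ, IsPar1 c → IsPar1 c' → κ (c + c') = κ c + κ c') ∧
    (∀ c : Additive (Gamma1 M) →+ ZMod ℓ, IsPar1 c → κ c = 0 → c = 0) ∧
    (∀ (p : ℕ) [Fact p.Prime] (hpM : ¬ p ∣ M) (c : Additive (Gamma1 M) →+ ZMod ℓ),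
      IsPar1 c → IsPar1 (heckeHom1 p hpM (ZMod ℓ) c) →
        heckeT M ℓ p (κ c) = diamondST s M ℓ p (κ (heckeHom1 p hpM (ZMod ℓ) c))) ∧
    (∀ (p : ℕ) [Fact p.Prime] (_ : ¬ p ∣ M) (g : SL(2, ℤ)) (hg : g ∈ Gamma0 M),
      ((g 1 1 : ℤ) : ZMod M) = (p : ZMod M) → ∀ c : Additive (Gamma1 M) →+ ZMod ℓ,
      IsPar1 c → IsPar1 (diaHom1 g hg (ZMod ℓ) c) →
        diamondST s M ℓ p (κ (diaHom1 g hg (ZMod ℓ) c)) = κ c)

/-- **KUM1**: the Kummer bridge at the levels `M₀ ℓ`, `ℓ` large. -/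
def Kum1Statement (s : Bool) : Prop :=
  ∀ (M₀ : ℕ) [NeZero M₀], ∃ B : ℕ, ∀ (ℓ : ℕ) [Fact ℓ.Prime], B < ℓ →
    haveI : NeZero (M₀ * ℓ) := ⟨Nat.mul_ne_zero (NeZero.ne M₀) (Fact.out : ℓ.Prime).ne_zero⟩
    Kum1At s (M₀ * ℓ) ℓ

theorem diamondST_not_apply (s : Bool) (M m p : ℕ) (x : J1T M m) :
    diamondST (!s) M m p (diamondST s M m p x) = x := by
  have h := congrArg (fun f : Module.End ℤ (J1T M m) => f x) (diamondST_not_comp s M m p)
  simpa using h

/-- `GeoAt` from RawES1 and KUM1 (`ℓ ∣ M`). -/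
theorem geoAt_of_es_kum (s : Bool) (hES : RawES1Statement s) {M : ℕ} [NeZero M] {ℓ : ℕ}
    (hℓ : ℓ.Prime) (hℓM : ℓ ∣ M) (hK : Kum1At s M ℓ) : GeoAt M ℓ := by
  obtain ⟨κ, hadd, hinj, hT, hD⟩ := hK
  have hpM : ∀ p : ℕ, p.Prime → ¬ p ∣ M → ¬ p ∣ M * ℓ := by
    intro p hp hM hd
    rcases (Nat.Prime.dvd_mul hp).1 hd with h | h
    · exact hM h
    · exact hM (h.trans hℓM)
  refine ⟨J1T M ℓ, inferInstance, galoisActionJ1T M ℓ,
    fun p => diamondST (!s) M ℓ p ∘ₗ heckeT M ℓ p, fun p => diamondST (!s) M ℓ p, κ,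
    ?_, ?_, ?_, ?_, ?_, ?_, hadd, hinj, ?_, ?_⟩
  · intro y
    apply Subtype.ext
    have := Pic0.mem_torsion.mp y.2
    rw [AddSubgroup.coe_nsmul, ← natCast_zsmul]
    exact this
  · intro p σ x
    letI := galoisActionJ1T M ℓ
    show diamondST (!s) M ℓ p (heckeT M ℓ p (σ • x))
      = σ • diamondST (!s) M ℓ p (heckeT M ℓ p x)
    rw [galois_smul_heckeT, galois_smul_diamondST]
  · intro p σ x
    exact galois_smul_diamondST (!s) M ℓ p σ x
  · intro x
    obtain ⟨K, hK, hfix⟩ := j1_exists_finite_level_fix_torsion M hℓ.ne_zero (x : J1 M)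
      (Pic0.mem_torsion.mp x.2)
    exact ⟨K, hK, fun σ hσ => Subtype.ext (hfix σ hσ)⟩
  · intro p hp hM V hV σ hσ x
    exact Subtype.ext ((hES M ℓ p (NeZero.ne M) hℓ hp (hpM p hp hM) V hV).1 σ hσ (x : J1 M)
      (Pic0.mem_torsion.mp x.2))
  · intro p hp hM V hV σ hσ x
    letI := galoisActionJ1T M ℓ
    apply Subtype.ext
    have h := (hES M ℓ p (NeZero.ne M) hℓ hp (hpM p hp hM) V hV).2 σ hσ (x : J1 M)
      (Pic0.mem_torsion.mp x.2)
    have h2 := congrArg (diamondS (!s) M p) h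
    rw [map_add, map_sub, map_zero, diamondS_not_diamondS, map_zsmul] at h2
    show ((σ • σ • x - (diamondST (!s) M ℓ p ∘ₗ heckeT M ℓ p) (σ • x)
      + (p : ℤ) • diamondST (!s) M ℓ p x : J1T M ℓ) : J1 M) = 0
    rw [AddSubgroup.coe_add, AddSubgroup.coe_sub, AddSubgroup.coe_zsmul, LinearMap.comp_apply,
      coe_diamondST, coe_diamondST]
    exact h2
  · intro p _ hM c hc hc'
    show κ (heckeHom1 p hM (ZMod ℓ) c) = diamondST (!s) M ℓ p (heckeT M ℓ p (κ c))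
    rw [hT p hM c hc hc', diamondST_not_apply]
  · intro p _ hM g hg hgp c hc hc'
    show κ (diaHom1 g hg (ZMod ℓ) c) = diamondST (!s) M ℓ p (κ c)
    conv_rhs => rw [← hD p hM g hg hgp c hc hc']
    rw [diamondST_not_apply]

/-- **GEO from RawES1 and KUM1.** -/
theorem geoStatement_of_es_kum (s : Bool) (hES : RawES1Statement s) (hK : Kum1Statement s) :
    GeoStatement := by
  intro M₀ _
  obtain ⟨B, hB⟩ := hK M₀
  refine ⟨B, fun ℓ hℓ hBℓ => ?_⟩
  haveI : NeZero (M₀ * ℓ) := ⟨Nat.mul_ne_zero (NeZero.ne M₀) hℓ.out.ne_zero⟩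
  exact geoAt_of_es_kum s hES hℓ.out (Dvd.intro_left M₀ rfl) (hB ℓ hBℓ)

/-- **RES from RawES1 and KUM1.** -/
theorem residual_of_es_kum (s : Bool) (hES : RawES1Statement s) (hK : Kum1Statement s) :
    Fermat.Agent.S48.Top.ResidualStatement :=
  residualStatement_of_geo (geoStatement_of_es_kum s hES hK)

end Fermat.Agent.S48.H948
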