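import Fermat.Agent.S48.H948.CohAsm
import Fermat.Agent.S48.H888.MAsm
import Fermat.Agent.S29.M4cCore

/-!
# S48 / RES (Tower A1): the final assembly `GeoStatement → Top.ResidualStatement` (helper948)

The cohomology side of RES is closed (`cohStatement`, `CohAsm.lean`).  This file states the
GEOMETRIC side as ONE `Prop`, `GeoStatement`, in terms of objects that are on main, and proves

  `residualStatement_of_geo : GeoStatement → Top.ResidualStatement`.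

`GeoAt M ℓ` (`M = M₀ ℓ` the level, `ℓ` the residue characteristic) asks for SOME abelian group
`J` killed by `ℓ` (in the application: `J₁(M)(ℚ̄)[ℓ]`, or the `ℓ`-torsion of the Jacobian of any
intermediate curve) with

* an action of `G_ℚ` with open stabilisers, unramified at the primes `p ∤ M`,
* SOME endomorphisms `T p`, `D p` commuting with `G_ℚ` such that every Frobenius element `σ` at
  `p ∤ M` satisfies `σ² - T_p σ + p D_p = 0` on `J`,
* a map `κ` (Kummer bridge) from additive characters `Γ₁(M) → 𝔽_ℓ` to `J`, additive and injective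
  on parabolic characters, intertwining `H548.heckeHom1 p` with `T p` and `H548.diaHom1 s`
  (`s ∈ Γ₀(M)`, `s₁₁ ≡ p`) with `D p`.

Nothing else is needed: no dimension count, no pairing, no freeness.  `T p`, `D p` are
existentially quantified, so the geometric side is free to choose its normalisation of the Hecke
correspondence and of the diamond operator (Picard/Albanese, `⟨p⟩` or `⟨p⟩⁻¹`), as long as the
Frobenius relation and the compatibility with `κ` hold for the SAME operators.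
`GeoStatement` only asks `GeoAt (M₀ ℓ) ℓ` for `ℓ` larger than a bound depending on `M₀`.
-/

set_option autoImplicit false
set_option linter.unusedSectionVars false
set_option linter.style.haveILetI false

noncomputable section

namespace Fermat.Agent.S48.H948

open CongruenceSubgroup Matrix.SpecialLinearGroup ModularCurve.Period
open scoped MatrixGroups TensorProduct

open Fermat.Agent.S48.Top (Zbar IsEigen)
open Fermat.Agent.S48.H548 (heckeHom1 diaHom1 heckeHom1_apply diaHom1_apply trf1 conj1)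
open Fermat.Agent.S48.H888 (GalQ)

/-- A parabolic additive character of `Γ₁(M)`: zero on the elements of trace `±2` and on the
elements of finite order. -/
structure IsPar1 {M : ℕ} {A : Type*} [AddCommGroup A] (c : Additive (Gamma1 M) →+ A) : Prop where
  parabolic : IsParabolicHom (Gamma1 M) c
  finOrder : ∀ γ : Gamma1 M, IsOfFinOrder γ → c (Additive.ofMul γ) = 0

/-- **GEO(M, ℓ)**: the geometric side of RES at level `M` and residue characteristic `ℓ`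
(see the module docstring). -/
def GeoAt (M : ℕ) [NeZero M] (ℓ : ℕ) : Prop :=
  ∃ (J : Type) (_ : AddCommGroup J) (_ : DistribMulAction GalQ J)
    (T D : ℕ → Module.End ℤ J) (κ : (Additive (Gamma1 M) →+ ZMod ℓ) → J),
    (∀ y : J, ℓ • y = 0) ∧
    (∀ (p : ℕ) (σ : GalQ) (x : J), T p (σ • x) = σ • T p x) ∧
    (∀ (p : ℕ) (σ : GalQ) (x : J), D p (σ • x) = σ • D p x) ∧
    (∀ x : J, ∃ L : IntermediateField ℚ (AlgebraicClosure ℚ), FiniteDimensional ℚ L ∧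
      ∀ σ : GalQ, (∀ y ∈ L, σ y = y) → σ • x = x) ∧
    (∀ p : ℕ, p.Prime → ¬ p ∣ M → ∀ V : ValuationSubring (AlgebraicClosure ℚ),
      V.LiesOverPrime p → ∀ σ ∈ V.inertiaSubgroupIn ℚ, ∀ x : J, σ • x = x) ∧
    (∀ p : ℕ, p.Prime → ¬ p ∣ M → ∀ V : ValuationSubring (AlgebraicClosure ℚ),
      V.LiesOverPrime p → ∀ σ : GalQ, V.IsFrobeniusAt σ p →
        ∀ x : J, σ • σ • x - T p (σ • x) + (p : ℤ) • D p x = 0) ∧
    (∀ c c' : Additive (Gamma1 M) →+ ZMod ℓ, IsPar1 c → IsPar1 c' → κ (c + c') = κ c + κ c') ∧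
    (∀ c : Additive (Gamma1 M) →+ ZMod ℓ, IsPar1 c → κ c = 0 → c = 0) ∧
    (∀ (p : ℕ) [Fact p.Prime] (hpM : ¬ p ∣ M) (c : Additive (Gamma1 M) →+ ZMod ℓ),
      IsPar1 c → IsPar1 (heckeHom1 p hpM (ZMod ℓ) c) →
        κ (heckeHom1 p hpM (ZMod ℓ) c) = T p (κ c)) ∧
    (∀ (p : ℕ) [Fact p.Prime] (_ : ¬ p ∣ M) (s : SL(2, ℤ)) (hs : s ∈ Gamma0 M),
      ((s 1 1 : ℤ) : ZMod M) = (p : ZMod M) → ∀ c : Additive (Gamma1 M) →+ ZMod ℓ,
      IsPar1 c → IsPar1 (diaHom1 s hs (ZMod ℓ) c) →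
        κ (diaHom1 s hs (ZMod ℓ) c) = D p (κ c))

/-- **GEO**: the geometric side of RES — the only open input of row S48. -/
def GeoStatement : Prop :=
  ∀ (M₀ : ℕ) [NeZero M₀], ∃ B : ℕ, ∀ (ℓ : ℕ) [Fact ℓ.Prime], B < ℓ →
    haveI : NeZero (M₀ * ℓ) := ⟨Nat.mul_ne_zero (NeZero.ne M₀) (Fact.out : ℓ.Prime).ne_zero⟩
    GeoAt (M₀ * ℓ) ℓ

/-! ### Linear algebra: from the eigenclass to an eigenvector in `F ⊗ J` -/

section LinAlg

variable {ℓ : ℕ} [Fact ℓ.Prime] {F : Type} [Field F] [Algebra (ZMod ℓ) F]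
  {M : ℕ} [NeZero M]

/-- The additive subgroup of parabolic characters. -/
def parSub (M : ℕ) (ℓ : ℕ) : AddSubgroup (Additive (Gamma1 M) →+ ZMod ℓ) where
  carrier := {c | IsPar1 c}
  zero_mem' := ⟨fun _ _ => rfl, fun _ _ => rfl⟩
  add_mem' := by
    intro c c' hc hc'
    refine ⟨fun γ hγ => ?_, fun γ hγ => ?_⟩
    · rw [AddMonoidHom.add_apply, hc.parabolic γ hγ, hc'.parabolic γ hγ, add_zero]
    · rw [AddMonoidHom.add_apply, hc.finOrder γ hγ, hc'.finOrder γ hγ, add_zero]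
  neg_mem' := by
    intro c hc
    refine ⟨fun γ hγ => ?_, fun γ hγ => ?_⟩
    · rw [AddMonoidHom.neg_apply, hc.parabolic γ hγ, neg_zero]
    · rw [AddMonoidHom.neg_apply, hc.finOrder γ hγ, neg_zero]

theorem mem_parSub {c : Additive (Gamma1 M) →+ ZMod ℓ} : c ∈ parSub M ℓ ↔ IsPar1 c := Iff.rfl

/-- Coefficients of a vanishing `𝔽_ℓ`-combination of independent vectors vanish. -/
theorem coeff_eq_zero_of_sum {n : ℕ} {w : Fin n → F} (hw : LinearIndependent (ZMod ℓ) w)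
    (r : Fin n → ZMod ℓ) (h : ∑ j, w j * algebraMap (ZMod ℓ) F (r j) = 0) (j : Fin n) :
    r j = 0 := by
  have h' : ∑ j, r j • w j = 0 := by
    rw [← h]
    refine Finset.sum_congr rfl fun j _ => ?_
    rw [Algebra.smul_def, mul_comm]
  exact Fintype.linearIndependent_iff.mp hw r h' j

/-- **Key step.**  Let `cl = ∑ wⱼ cⱼ` be an `F`-valued character in `𝔽_ℓ`-coordinates, `Θ` an
operator on characters given by a finite transfer formula, with `Θ cl = lam • cl`.  If the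
coordinates of `cl` are parabolic, so are those of `Θ cl`, and for every map `κ` additive on
parabolic characters `∑ wⱼ ⊗ κ(Θ cⱼ) = lam • ∑ wⱼ ⊗ κ(cⱼ)`. -/
theorem tensor_eigen {J : Type} [AddCommGroup J]
    (κ : (Additive (Gamma1 M) →+ ZMod ℓ) → J)
    (hκadd : ∀ c c' : Additive (Gamma1 M) →+ ZMod ℓ, IsPar1 c → IsPar1 c' →
      κ (c + c') = κ c + κ c')
    {n : ℕ} (w : Fin n → F) (hw : LinearIndependent (ZMod ℓ) w)
    (cc : Fin n → Additive (Gamma1 M) →+ ZMod ℓ) (hcc : ∀ j, IsPar1 (cc j))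
    (cl : Additive (Gamma1 M) →+ F)
    (hcoord : ∀ γ, cl γ = ∑ j, w j * algebraMap (ZMod ℓ) F (cc j γ))
    (hclpar : IsPar1 cl)
    (Θ : (Additive (Gamma1 M) →+ ZMod ℓ) → (Additive (Gamma1 M) →+ ZMod ℓ)) (lam : F)
    (hΘ : ∀ γ, ∑ j, w j * algebraMap (ZMod ℓ) F (Θ (cc j) γ) = lam * cl γ) :
    (∀ j, IsPar1 (Θ (cc j))) ∧
      ∑ j, w j ⊗ₜ[ℤ] κ (Θ (cc j)) = lam • ∑ j, w j ⊗ₜ[ℤ] κ (cc j) := by
  have hpar : ∀ j, IsPar1 (Θ (cc j)) := by
    intro j
    refine ⟨fun γ hγ => ?_, fun γ hγ => ?_⟩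
    · refine coeff_eq_zero_of_sum hw (fun j => Θ (cc j) (Additive.ofMul γ)) ?_ j
      rw [hΘ, hclpar.parabolic γ hγ, mul_zero]
    · refine coeff_eq_zero_of_sum hw (fun j => Θ (cc j) (Additive.ofMul γ)) ?_ j
      rw [hΘ, hclpar.finOrder γ hγ, mul_zero]
  refine ⟨hpar, ?_⟩
  let κ' : parSub M ℓ →+ J :=
    AddMonoidHom.mk' (fun q => κ q.1) (fun q q' => hκadd _ _ q.2 q'.2)
  let ev : Additive (Gamma1 M) → parSub M ℓ →+ ZMod ℓ := fun γ =>
    AddMonoidHom.mk' (fun q => q.1 γ) (fun q q' => rfl)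
  have hev : ∀ q : parSub M ℓ, (∀ γ, ev γ q = 0) → q = 0 := by
    intro q hq
    apply Subtype.ext
    refine AddMonoidHom.ext fun γ => ?_
    exact hq γ
  have key := Fermat.Agent.S29.M4c.core_eq (F := F) κ' ev hev w (fun j => ⟨cc j, hcc j⟩)
    (fun j => ⟨Θ (cc j), hpar j⟩) lam (fun γ => by
      show ∑ j, w j * algebraMap (ZMod ℓ) F (Θ (cc j) γ)
        = lam * ∑ j, w j * algebraMap (ZMod ℓ) F (cc j γ)
      rw [hΘ, hcoord])
  exact key

end LinAlg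

/-! ### The assembly -/

/-- `Γ₁(M)` is a finitely generated group. -/
theorem groupFG_Gamma1 (M : ℕ) [NeZero M] : Group.FG (Gamma1 M) := by
  haveI := Fermat.Agent.S48.H188.fg_SL2Z
  infer_instance

/-- Coordinates of `heckeHom1 p cl`. -/
theorem heckeHom1_coords {M : ℕ} [NeZero M] {ℓ : ℕ} {F : Type} [Field F] [Algebra (ZMod ℓ) F]
    {p : ℕ} [Fact p.Prime] (hpM : ¬ p ∣ M) {n : ℕ} (w : Fin n → F)
    (cc : Fin n → Additive (Gamma1 M) →+ ZMod ℓ) (cl : Additive (Gamma1 M) →+ F)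
    (hcoord : ∀ γ, cl γ = ∑ j, w j * algebraMap (ZMod ℓ) F (cc j γ))
    (γ : Additive (Gamma1 M)) :
    ∑ j, w j * algebraMap (ZMod ℓ) F (heckeHom1 p hpM (ZMod ℓ) (cc j) γ)
      = heckeHom1 p hpM F cl γ := by
  have h1 : ∀ (A : Type) [AddCommGroup A] (φ : Additive (Gamma1 M) →+ A),
      heckeHom1 p hpM A φ γ
        = ∑ x : OnePoint (ZMod p), φ (Additive.ofMul (trf1 hpM (Additive.toMul γ) x)) :=
    fun A _ φ => rfl
  rw [h1 F cl]
  simp only [h1 (ZMod ℓ), map_sum, Finset.mul_sum, hcoord]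
  exact Finset.sum_comm

/-- Coordinates of `diaHom1 s cl`. -/
theorem diaHom1_coords {M : ℕ} [NeZero M] {ℓ : ℕ} {F : Type} [Field F] [Algebra (ZMod ℓ) F]
    (s : SL(2, ℤ)) (hs : s ∈ Gamma0 M) {n : ℕ} (w : Fin n → F)
    (cc : Fin n → Additive (Gamma1 M) →+ ZMod ℓ) (cl : Additive (Gamma1 M) →+ F)
    (hcoord : ∀ γ, cl γ = ∑ j, w j * algebraMap (ZMod ℓ) F (cc j γ))
    (γ : Additive (Gamma1 M)) :
    ∑ j, w j * algebraMap (ZMod ℓ) F (diaHom1 s hs (ZMod ℓ) (cc j) γ)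
      = diaHom1 s hs F cl γ := by
  have h1 : ∀ (A : Type) [AddCommGroup A] (φ : Additive (Gamma1 M) →+ A),
      diaHom1 s hs A φ γ = φ (Additive.ofMul (conj1 s hs (Additive.toMul γ))) :=
    fun A _ φ => rfl
  rw [h1 F cl, hcoord]
  simp only [h1 (ZMod ℓ)]

/-- The module of layer A' from the cohomological eigenclass and the geometric side. -/
theorem hasFrobModule1_of_geoAt {N : ℕ} [NeZero N] (ε : DirichletCharacter ℂ N)
    (f : CuspForm (Gamma1 N) 1) {M₀ : ℕ} (hprimes : ∀ q : ℕ, q.Prime → q ∣ M₀ → q ∣ N)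
    {ℓ : ℕ} [Fact ℓ.Prime] [NeZero (M₀ * ℓ)]
    {F : Type} [Field F] [CharP F ℓ] (ψ : Zbar →+* F)
    {cl : Additive (Gamma1 (M₀ * ℓ)) →+ F} (hcl : IsCohEigenclass ε f (M₀ * ℓ) ψ cl)
    (hgeo : GeoAt (M₀ * ℓ) ℓ) :
    Fermat.Agent.S48.H888.HasFrobModule1 ε f ℓ ψ := by
  classical
  obtain ⟨J, _, _, T, D, κ, hJ, hTσ, hDσ, hsm, hur, hfr, hκadd, hκinj, hκT, hκD⟩ := hgeo
  letI : Algebra (ZMod ℓ) F := ZMod.algebra F ℓ
  haveI := groupFG_Gamma1 (M₀ * ℓ)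
  obtain ⟨n, w, cc, hw, hcoord, hvan⟩ :=
    Fermat.Agent.S48.H188.exists_coords (k := ZMod ℓ) cl
  have hclpar : IsPar1 cl := ⟨hcl.parabolic, hcl.finOrder⟩
  have hcc : ∀ j, IsPar1 (cc j) := fun j =>
    ⟨fun γ hγ => hvan _ (hcl.parabolic γ hγ) j, fun γ hγ => hvan _ (hcl.finOrder γ hγ) j⟩
  have hne : ∃ j, cc j ≠ 0 := by
    by_contra hall
    apply hcl.ne_zero
    refine AddMonoidHom.ext fun γ => ?_
    rw [hcoord]
    have h0 : ∀ j, cc j = 0 := fun j => by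
      by_contra hj
      exact hall ⟨j, hj⟩
    simp [h0]
  obtain ⟨j₀, hj₀⟩ := hne
  -- primes
  have hS : ∀ p : ℕ, p.Prime → ¬ p ∣ N * ℓ → ¬ p ∣ M₀ * ℓ := by
    intro p hp hpS hd
    rcases (Nat.Prime.dvd_mul hp).mp hd with h | h
    · exact hpS (Dvd.dvd.mul_right (hprimes p hp h) ℓ)
    · exact hpS (Dvd.dvd.mul_left h N)
  have hpF : ∀ p : ℕ, p.Prime → ¬ p ∣ N * ℓ → (p : F) ≠ 0 := by
    intro p hp hpS h0
    have hd : ℓ ∣ p := (CharP.cast_eq_zero_iff F ℓ p).mp h0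
    have : ℓ = p := (Nat.prime_dvd_prime_iff_eq (Fact.out : ℓ.Prime) hp).mp hd
    exact hpS (this ▸ Dvd.intro_left N rfl)
  -- the eigenvalues
  have hA : ∀ p : ℕ, p.Prime → ¬ p ∣ N * ℓ → ∃ a e : Zbar,
      (a : ℂ) = ModularFormClass.qCoeff f p ∧ (e : ℂ) = ε (p : ZMod N) ∧
      (T p).baseChange F (∑ j, w j ⊗ₜ[ℤ] κ (cc j)) = ψ a • ∑ j, w j ⊗ₜ[ℤ] κ (cc j) ∧
      (D p).baseChange F (∑ j, w j ⊗ₜ[ℤ] κ (cc j))
        = (ψ e * (p : F)⁻¹) • ∑ j, w j ⊗ₜ[ℤ] κ (cc j) := by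
    intro p hp hpS
    haveI : Fact p.Prime := ⟨hp⟩
    have hpM : ¬ p ∣ M₀ * ℓ := hS p hp hpS
    obtain ⟨a, ha, haT⟩ := hcl.hecke p hpM
    obtain ⟨e, he, heD⟩ := hcl.diamond p hpM (Fermat.Agent.S48.H548.sigmaP (M₀ * ℓ) p hpM)
      (Fermat.Agent.S48.H548.sigmaP_mem hpM) (Fermat.Agent.S48.H548.sigmaP_lower hpM)
    refine ⟨a, e, ha, he, ?_, ?_⟩
    · obtain ⟨hpar, hten⟩ := tensor_eigen κ hκadd w hw cc hcc cl hcoord hclpar
        (fun c => heckeHom1 p hpM (ZMod ℓ) c) (ψ a) (fun γ => by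
          rw [heckeHom1_coords hpM w cc cl hcoord γ, haT γ])
      rw [map_sum, ← hten]
      refine Finset.sum_congr rfl fun j _ => ?_
      rw [LinearMap.baseChange_tmul, hκT p hpM (cc j) (hcc j) (hpar j)]
    · obtain ⟨hpar, hten⟩ := tensor_eigen κ hκadd w hw cc hcc cl hcoord hclpar
        (fun c => diaHom1 (Fermat.Agent.S48.H548.sigmaP (M₀ * ℓ) p hpM)
          (Fermat.Agent.S48.H548.sigmaP_mem hpM) (ZMod ℓ) c) (ψ e * (p : F)⁻¹) (fun γ => by
          rw [diaHom1_coords _ _ w cc cl hcoord γ]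
          have h1 := heD γ
          have hp0 := hpF p hp hpS
          field_simp
          rw [← h1]
          ring)
      rw [map_sum, ← hten]
      refine Finset.sum_congr rfl fun j _ => ?_
      rw [LinearMap.baseChange_tmul, hκD p hpM _ (Fermat.Agent.S48.H548.sigmaP_mem hpM)
        (Fermat.Agent.S48.H548.sigmaP_lower hpM) (cc j) (hcc j) (hpar j)]
  let a : ℕ → Zbar := fun p => if h : p.Prime ∧ ¬ p ∣ N * ℓ then (hA p h.1 h.2).choose else 0
  let e : ℕ → Zbar := fun p =>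
    if h : p.Prime ∧ ¬ p ∣ N * ℓ then (hA p h.1 h.2).choose_spec.choose else 0
  have hae : ∀ p : ℕ, p.Prime → ¬ p ∣ N * ℓ →
      ((a p : Zbar) : ℂ) = ModularFormClass.qCoeff f p ∧ ((e p : Zbar) : ℂ) = ε (p : ZMod N) ∧
      (T p).baseChange F (∑ j, w j ⊗ₜ[ℤ] κ (cc j)) = ψ (a p) • ∑ j, w j ⊗ₜ[ℤ] κ (cc j) ∧
      (D p).baseChange F (∑ j, w j ⊗ₜ[ℤ] κ (cc j))
        = (ψ (e p) * (p : F)⁻¹) • ∑ j, w j ⊗ₜ[ℤ] κ (cc j) := by
    intro p hp hpS
    have h : p.Prime ∧ ¬ p ∣ N * ℓ := ⟨hp, hpS⟩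
    simp only [a, e, dif_pos h]
    exact (hA p h.1 h.2).choose_spec.choose_spec
  refine Fermat.Agent.S48.H888.hasFrobModule1_of_det ε f ℓ ψ a e
    (fun p hp hpS => (hae p hp hpS).1) (fun p hp hpS => (hae p hp hpS).2.1) ?_
  refine Fermat.Agent.S48.H888.hasFrobModuleDet_of_eigenvector (N * ℓ) (fun p => ψ (a p))
    (fun p => ψ (e p) * (p : F)⁻¹) (fun p => ψ (e p)) T D hTσ hDσ hsm
    (fun p hp hpS V hV σ hσ x => hur p hp (hS p hp hpS) V hV σ hσ x)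
    (fun p hp hpS V hV σ hσ x => hfr p hp (hS p hp hpS) V hV σ hσ x)
    (fun p hp hpS => by
      have hp0 := hpF p hp hpS
      field_simp)
    ⟨∑ j, w j ⊗ₜ[ℤ] κ (cc j), ?_, fun p hp hpS => ⟨(hae p hp hpS).2.2.1, (hae p hp hpS).2.2.2⟩⟩
  refine Fermat.Agent.S29.M4c.core_ne_zero (p := ℓ) hJ w hw (fun j => κ (cc j)) j₀ ?_
  intro h0
  exact hj₀ (hκinj _ (hcc j₀) h0)

/-- **RES from its geometric side.** -/
theorem residualStatement_of_geo (hgeo : GeoStatement) :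
    Fermat.Agent.S48.Top.ResidualStatement := by
  refine Fermat.Agent.S48.H888.residualStatement_of_frobModule ?_
  intro N _ ε f hf
  obtain ⟨M₀, hM₀, -, hprimes, hcoh⟩ := cohStatement N ε f hf
  obtain ⟨B, hB⟩ := hgeo M₀
  refine ⟨max B 2, fun ℓ hℓ hBℓ F _ _ _ ψ => ?_⟩
  haveI : Fact ℓ.Prime := ⟨hℓ⟩
  haveI : NeZero (M₀ * ℓ) := ⟨Nat.mul_ne_zero (NeZero.ne M₀) hℓ.ne_zero⟩
  have hℓ2 : ℓ ≠ 2 := fun h => by
    have := lt_of_le_of_lt (le_max_right B 2) hBℓ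
    omega
  obtain ⟨cl, hcl⟩ := hcoh ℓ hℓ2 F ψ
  exact hasFrobModule1_of_geoAt ε f hprimes ψ hcl
    (hB ℓ (lt_of_le_of_lt (le_max_left B 2) hBℓ))

end Fermat.Agent.S48.H948
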