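import Fermat.Agent.S48.Top.Spec

/-!
# S48 glue (helper948): the Z-lemma and roots of unity

* `exists_nat_cast_eq_zero`: a non-zero algebraic number `z` has a non-zero "norm" `n : ℕ` such
  that every ring hom `φ : ℤ̄ → k` killing (a preimage of) `z` kills `n`.
* `killNat`, `killProd`: the choice of such an `n`, and its product over a finite set.
* `exists_roots_of_pow_eq_one`: a matrix `g ∈ GL₂(ℂ)` with `g ^ m = 1` has trace `α + β` and
  determinant `α β` with `α ^ m = β ^ m = 1`.
-/

set_option autoImplicit false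

namespace Fermat.Agent.S48.H948

open Polynomial Fermat.Agent.S48.Top

/-- An algebraic element `x ≠ 0` of a domain is a root of an integer polynomial with non-zero
constant term. -/
theorem exists_poly_coeff_zero_ne_zero {R : Type*} [CommRing R] [IsDomain R] (x : R) (hx : x ≠ 0) :
    ∀ (n : ℕ) (P : ℤ[X]), P.natDegree ≤ n → P ≠ 0 → aeval x P = 0 →
      ∃ Q : ℤ[X], aeval x Q = 0 ∧ Q.coeff 0 ≠ 0 := by
  intro n
  induction n with
  | zero =>
    intro P hdeg hP hroot
    by_cases h0 : P.coeff 0 = 0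
    · exfalso
      apply hP
      rw [Polynomial.eq_C_of_natDegree_le_zero hdeg, h0, map_zero]
    · exact ⟨P, hroot, h0⟩
  | succ n ih =>
    intro P hdeg hP hroot
    by_cases h0 : P.coeff 0 = 0
    · have hPX : P = P.divX * X := by
        have := Polynomial.divX_mul_X_add P
        rw [h0, map_zero, add_zero] at this
        exact this.symm
      have hQ : P.divX ≠ 0 := by
        intro h
        apply hP
        rw [hPX, h, zero_mul]
      have hroot' : aeval x P.divX = 0 := by
        rw [hPX, map_mul, aeval_X] at hroot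
        rcases mul_eq_zero.mp hroot with h | h
        · exact h
        · exact absurd h hx
      have hdeg' : P.divX.natDegree ≤ n := by
        rw [Polynomial.natDegree_divX_eq_natDegree_tsub_one]
        omega
      exact ih P.divX hdeg' hQ hroot'
    · exact ⟨P, hroot, h0⟩

/-- **Z-lemma.**  A non-zero algebraic integer `z ∈ ℂ` has a non-zero natural number `n` which
vanishes in every field `k` receiving a ring hom `φ : ℤ̄ → k` with `φ z = 0`. -/
theorem exists_nat_cast_eq_zero (z : ℂ) (hz : IsIntegral ℤ z) (h0 : z ≠ 0) :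
    ∃ n : ℕ, n ≠ 0 ∧ ∀ (k : Type) [Field k] (φ : Zbar →+* k) (x : Zbar),
      (x : ℂ) = z → φ x = 0 → (n : k) = 0 := by
  obtain ⟨P, hPm, hPz⟩ := hz
  have hP0 : P ≠ 0 := hPm.ne_zero
  have hPz' : aeval z P = 0 := by
    rw [Polynomial.aeval_def]; exact hPz
  obtain ⟨Q, hQz, hQ0⟩ := exists_poly_coeff_zero_ne_zero z h0 P.natDegree P le_rfl hP0 hPz'
  refine ⟨(Q.coeff 0).natAbs, Int.natAbs_ne_zero.mpr hQ0, ?_⟩
  intro k _ φ x hx hφ
  have hQx : aeval x Q = 0 := by
    have h1 : ((aeval x Q : Zbar) : ℂ) = aeval z Q := by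
      rw [← hx]
      exact (Polynomial.aeval_algebraMap_apply ℂ x Q).symm ▸ rfl
    have h2 : ((aeval x Q : Zbar) : ℂ) = 0 := by rw [h1, hQz]
    exact_mod_cast h2
  have h3 : φ (aeval x Q) = 0 := by rw [hQx, map_zero]
  have h4 : φ (aeval x Q) = ((Q.coeff 0 : ℤ) : k) := by
    rw [Polynomial.aeval_eq_sum_range, map_sum]
    rw [Finset.sum_eq_single 0]
    · simp
    · intro i _ hi
      rw [zsmul_eq_mul, map_mul, map_pow, hφ, zero_pow hi, mul_zero]
    · intro h
      exact absurd (Finset.mem_range.mpr (Nat.succ_pos _)) h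
  rw [h4] at h3
  have h5 : (((Q.coeff 0).natAbs : ℤ) : k) = 0 := by
    rcases Int.natAbs_eq (Q.coeff 0) with h | h
    · rw [← h]; exact h3
    · have : ((Q.coeff 0).natAbs : ℤ) = - Q.coeff 0 := by omega
      rw [this, Int.cast_neg, h3, neg_zero]
  rw [Int.cast_natCast] at h5
  exact h5

open Classical in
/-- A natural number killed by every `φ : ℤ̄ → k` that kills `z` (`1` if `z` is zero or not
integral). -/
noncomputable def killNat (z : ℂ) : ℕ :=
  if h : IsIntegral ℤ z ∧ z ≠ 0 then (exists_nat_cast_eq_zero z h.1 h.2).choose else 1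

theorem killNat_ne_zero (z : ℂ) : killNat z ≠ 0 := by
  unfold killNat
  split_ifs with h
  · exact (exists_nat_cast_eq_zero z h.1 h.2).choose_spec.1
  · exact one_ne_zero

theorem killNat_cast {z : ℂ} (h0 : z ≠ 0) {k : Type} [Field k] (φ : Zbar →+* k) (x : Zbar)
    (hx : (x : ℂ) = z) (hφ : φ x = 0) : (killNat z : k) = 0 := by
  have hz : IsIntegral ℤ z := hx ▸ x.2
  unfold killNat
  rw [dif_pos ⟨hz, h0⟩]
  exact (exists_nat_cast_eq_zero z hz h0).choose_spec.2 k φ x hx hφ

/-- The product of the `killNat z`, `z ∈ D`. -/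
noncomputable def killProd (D : Finset ℂ) : ℕ := ∏ z ∈ D, killNat z

theorem killProd_ne_zero (D : Finset ℂ) : killProd D ≠ 0 :=
  Finset.prod_ne_zero_iff.mpr fun z _ => killNat_ne_zero z

/-- If `ℓ = char k` exceeds `killProd D`, then `φ` is injective on pairs with difference in `D`:
`φ a = φ b`, `a - b ∈ D` imply `a = b`. -/
theorem eq_of_map_eq_of_lt_char (D : Finset ℂ) {ℓ : ℕ} {k : Type} [Field k] [CharP k ℓ]
    (hℓ : killProd D < ℓ) (φ : Zbar →+* k) (a b : Zbar) (hD : (a : ℂ) - (b : ℂ) ∈ D)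
    (hφ : φ a = φ b) : a = b := by
  by_contra hab
  have h0 : ((a - b : Zbar) : ℂ) ≠ 0 := by
    intro h
    apply hab
    have : (a - b : Zbar) = 0 := by exact_mod_cast h
    exact sub_eq_zero.mp this
  have hx : ((a - b : Zbar) : ℂ) = (a : ℂ) - (b : ℂ) := by push_cast; rfl
  have h1 : (killNat ((a : ℂ) - (b : ℂ)) : k) = 0 :=
    killNat_cast (hx ▸ h0) φ (a - b) hx (by rw [map_sub, hφ, sub_self])
  have h2 : (killProd D : k) = 0 := by
    unfold killProd
    rw [Nat.cast_prod]
    exact Finset.prod_eq_zero hD h1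
  have h3 : ℓ ∣ killProd D := (CharP.cast_eq_zero_iff k ℓ _).mp h2
  have h4 := Nat.le_of_dvd (Nat.pos_of_ne_zero (killProd_ne_zero D)) h3
  omega

end Fermat.Agent.S48.H948
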